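import Fermat.Agent.S28.Tower.Induction
import Fermat.Agent.S28.Conjugates

/-!
# P-S28 WP-C: the (B)-adapter (helper60, as specified by helper12)

Bridges between the vocabulary of `Tower` (`Tower.twist`, `jS`, `polyAt`, `IsModEq`, `E₀`, `gen₀`)
and that of `Defs.lean` / `Conjugates.lean` (`S28.twist`, `qExpand`, `evalY`, `evalA`,
`ModularEquation`, `K1`, `jK1`):

* `twist_eq_S28_twist`, `jS_unit_one`, `evalAt_eq_evalY`, `evalAt_eq_evalA`;
* `isModEq_of_modularEquation : IsModEq E.Φ p k` for a `ModularEquation p`;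
* `K1EquivE₀ k D : k(j(w)) ≃ₐ[k] k(j(u^D))` and `irreducible_polyAt_gen₀`: (B) in the tower
  vocabulary;
* `hPhi_of_crux`: the packaged hypothesis `hΦ` of `Tower.linearIndependent_expand_ev`.
-/

set_option autoImplicit false
noncomputable section

namespace Fermat.Agent.S28.Tower

open ModularCurve Polynomial

section Bridge

variable {R : Type*} [CommRing R]

theorem twist_eq_S28_twist (ζ : Rˣ) :
    (twist ζ : LaurentSeries R →+* LaurentSeries R) = Fermat.Agent.S28.twist ζ := by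
  ext f n
  rw [twist_coeff, Fermat.Agent.S28.twist_coeff]

theorem jS_unit_one (η : Rˣ) : jS R η 1 = Fermat.Agent.S28.twist η (jqModC R) := by
  rw [jS, expand_one, twist_eq_S28_twist]

theorem evalAt_eq_evalY (y : LaurentSeries R) : evalAt y = Fermat.Agent.S28.evalY y := rfl

theorem evalAt_eq_evalA {A : Type*} [CommRing A] (a : A) :
    evalAt a = Fermat.Agent.S28.Conjugates.evalA a := rfl

/-- a `ModularEquation` gives `IsModEq` over every domain. -/
theorem isModEq_of_modularEquation {p : ℕ} [NeZero p] (E : ModularEquation p)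
    (k : Type) [CommRing k] [IsDomain k] : IsModEq E.Φ p k := by
  intro ζ hζ
  have hp2 : NeZero (p ^ 2) := ⟨pow_ne_zero 2 (NeZero.ne p)⟩
  rw [polyAt, evalAt_eq_evalY, jS_eq_qExpand, jS_eq_qExpand, E.factor ζ hζ]
  congr 1
  refine Finset.prod_congr rfl fun i _ => ?_
  rw [jS_unit_one]

end Bridge

section Irred

variable {k : Type} [Field k]

variable (k) in
/-- the `k`-isomorphism `k(j(w)) ≃ k(j(u^D))` induced by `w ↦ u^D`. -/
def K1EquivE₀ (D : ℕ) [NeZero D] : Conjugates.K1 k ≃ₐ[k] E₀ k D :=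
  ((Conjugates.K1 k).equivMap (qExpandAlgHomC k D)).trans
    (IntermediateField.equivOfEq (by
      rw [Conjugates.K1, IntermediateField.adjoin_map, Set.image_singleton,
        qExpandAlgHomC_apply, ← jS_eq_qExpand]))

theorem K1EquivE₀_jK1 (D : ℕ) [NeZero D] : K1EquivE₀ k D (Conjugates.jK1 k) = gen₀ k D := by
  apply Subtype.ext
  show qExpand k D (jqModC k) = jS k 1 D
  rw [jS_eq_qExpand]

/-- (B) in the tower vocabulary: `Φ_p(X, j̄(q))` is irreducible over `k(j̄(q))`, `q = u^D`. -/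
theorem irreducible_polyAt_gen₀ {p : ℕ} [NeZero p] (E : ModularEquation p) (z : kˣ)
    (hz : IsPrimitiveRoot z p) {D : ℕ} (hD : D ≠ 0)
    (hB1 : qExpand k p (jqModC k) ∉ IntermediateField.adjoin k {jqModC k}) :
    Irreducible (polyAt E.Φ (gen₀ k D)) := by
  have : NeZero D := ⟨hD⟩
  have h1 := Conjugates.irreducible_of_not_mem E z hz hB1
  have h2 : (E.Φ.map (Conjugates.evalA (Conjugates.jK1 k))).map
      ((K1EquivE₀ k D : Conjugates.K1 k ≃+* E₀ k D) : Conjugates.K1 k →+* E₀ k D) =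
      polyAt E.Φ (gen₀ k D) := by
    rw [Conjugates.map_evalA_map]
    show E.Φ.map (Conjugates.evalA (K1EquivE₀ k D (Conjugates.jK1 k))) = _
    rw [K1EquivE₀_jK1]
    rfl
  rw [← h2]
  exact (MulEquiv.irreducible_iff
    (Polynomial.mapEquiv (K1EquivE₀ k D : Conjugates.K1 k ≃+* E₀ k D))).mpr h1

/-- the packaged hypothesis of `linearIndependent_expand_ev`, from the modular equations and the
crux. -/
theorem hPhi_of_crux (ℓ : ℕ) [Fact ℓ.Prime] [IsAlgClosed k] [CharP k ℓ]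
    {N : ℕ} (hN : ¬ ℓ ∣ N)
    (ME : ∀ q [NeZero q], q.Prime → ModularEquation q)
    (hcrux : ∀ p [NeZero p], p.Prime → p ≠ ℓ →
      qExpand k p (jqModC k) ∉ IntermediateField.adjoin k {jqModC k}) :
    ∃ Φ : ℕ → ℤ[X][X], ∀ p, p.Prime → p ∣ N →
      (Φ p).Monic ∧ (Φ p).natDegree = p + 1 ∧ IsModEq (Φ p) p k ∧
        Irreducible (polyAt (Φ p) (gen₀ k N)) := by
  classical
  refine ⟨fun p => if h : p.Prime then
    (haveI : NeZero p := ⟨h.ne_zero⟩; (ME p h).Φ) else 0, ?_⟩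
  intro p hp hpN
  have hN0 : N ≠ 0 := fun h => hN (h ▸ dvd_zero ℓ)
  have hpℓ : p ≠ ℓ := fun h => hN (h ▸ hpN)
  have hpk : (p : k) ≠ 0 := by
    rw [Ne, CharP.cast_eq_zero_iff k ℓ p]
    intro hdvd
    exact hpℓ ((Nat.prime_dvd_prime_iff_eq Fact.out hp).mp hdvd).symm
  obtain ⟨z, hz⟩ := exists_primitiveRoot_unit (k := k) p hpk
  have : NeZero p := ⟨hp.ne_zero⟩
  simp only [dif_pos hp]
  exact ⟨(ME p hp).monic, (ME p hp).natDegree_eq, isModEq_of_modularEquation (ME p hp) k,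
    irreducible_polyAt_gen₀ (ME p hp) z hz hN0 (hcrux p hp hpℓ)⟩

/-- `linearIndependent_expand_ev` with its hypothesis discharged by the modular equations and the
crux. -/
theorem linearIndependent_expand_ev_of_crux (ℓ : ℕ) [Fact ℓ.Prime] [IsAlgClosed k] [CharP k ℓ]
    {N : ℕ} (hN : ¬ ℓ ∣ N)
    (ME : ∀ q [NeZero q], q.Prime → ModularEquation q)
    (hcrux : ∀ p [NeZero p], p.Prime → p ≠ ℓ →
      qExpand k p (jqModC k) ∉ IntermediateField.adjoin k {jqModC k}) :
    LinearIndependent (E₀ k N) (fun μ : box N => expand k N (ev k (μ : ℕ →₀ ℕ))) := by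
  obtain ⟨Φ, hΦ⟩ := hPhi_of_crux ℓ hN ME hcrux
  have hNk : (N : k) ≠ 0 := by
    rw [Ne, CharP.cast_eq_zero_iff k ℓ N]
    exact hN
  exact linearIndependent_expand_ev Φ hNk hΦ

end Irred

end Fermat.Agent.S28.Tower
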