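import Fermat.Agent.S28.Tower.Defs

/-!
# P-S28 WP-C (char 0): the modular relations between the `j(q^n)` over `ℚ` (helper82)

`rel_fwd : Φ_p(j(q^(np)), j(q^n)) = 0` and `rel_bwd : Φ_p(j(q^n), j(q^(np))) = 0` in `ℚ((q))`,
deduced from `IsModEq Φ p K` over any field `K ⊇ ℚ` having a primitive `p`-th root of unity.
-/

set_option autoImplicit false

open Polynomial ModularCurve

noncomputable section

namespace Fermat.Agent.S28.Tower

theorem Rel.of_map_injective {A B : Type*} [CommRing A] [CommRing B] {Φ : ℤ[X][X]} {a b : A}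
    (f : A →+* B) (hf : Function.Injective f) (h : Rel Φ (f a) (f b)) : Rel Φ a b := by
  unfold Rel at h ⊢
  rw [← polyAt_map Φ f b, IsRoot.def, eval_map] at h
  rw [IsRoot.def]
  apply hf
  rw [map_zero, ← h, Polynomial.eval₂_hom]

section OverK

variable {K : Type*} [Field K] {Φ : ℤ[X][X]} {p : ℕ}

theorem rel_bwd_K (hA : IsModEq Φ p K) (hp : p ≠ 0) {ζ : Kˣ} (hζ : IsPrimitiveRoot ζ p)
    {n : ℕ} (hn : n ≠ 0) : Rel Φ (jS K 1 n) (jS K 1 (n * p)) := by
  have h := hA.general hp hζ 1 hn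
  rw [one_pow, one_pow] at h
  unfold Rel
  rw [h, IsRoot.def, eval_mul, eval_prod]
  apply mul_eq_zero_of_right
  apply Finset.prod_eq_zero (Finset.mem_range.mpr (Nat.pos_of_ne_zero hp))
  simp

theorem rel_fwd_K_aux (hA : IsModEq Φ p K) (hp : p ≠ 0) {ζ : Kˣ} (hζ : IsPrimitiveRoot ζ p)
    {n : ℕ} (hn : n ≠ 0) : Rel Φ (jS K 1 (n * p ^ 2)) (jS K 1 (n * p)) := by
  have h := hA.general hp hζ 1 hn
  rw [one_pow, one_pow] at h
  unfold Rel
  rw [h, IsRoot.def, eval_mul]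
  apply mul_eq_zero_of_left
  simp

theorem rel_fwd_K (hA : IsModEq Φ p K) (hp : p ≠ 0) {ζ : Kˣ} (hζ : IsPrimitiveRoot ζ p)
    {n : ℕ} (hn : n ≠ 0) : Rel Φ (jS K 1 (n * p)) (jS K 1 n) := by
  apply Rel.of_map_injective (expand K p) (expand_injective hp)
  rw [expand_jS hp (Nat.mul_ne_zero hn hp), expand_jS hp hn]
  have h := rel_fwd_K_aux hA hp hζ hn
  have e1 : p * (n * p) = n * p ^ 2 := by ring
  have e2 : p * n = n * p := by ring
  rw [e1, e2]
  exact h

end OverK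

section OverQ

variable {K : Type*} [Field K] [Algebra ℚ K] {Φ : ℤ[X][X]} {p : ℕ}

theorem coeffMap_rat_injective : Function.Injective (coeffMap (algebraMap ℚ K)) := by
  intro f g h
  refine HahnSeries.ext (funext fun n => ?_)
  have := congrArg (fun s => HahnSeries.coeff s n) h
  simp only [coeffMap_coeff] at this
  exact (algebraMap ℚ K).injective this

theorem coeffMap_rat_jS (m : ℕ) : coeffMap (algebraMap ℚ K) (jS ℚ 1 m) = jS K 1 m := by
  rw [coeffMap_jS, map_one]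

theorem rel_fwd (hA : IsModEq Φ p K) (hp : p ≠ 0) {ζ : Kˣ} (hζ : IsPrimitiveRoot ζ p)
    {n : ℕ} (hn : n ≠ 0) : Rel Φ (jS ℚ 1 (n * p)) (jS ℚ 1 n) := by
  apply Rel.of_map_injective (coeffMap (algebraMap ℚ K)) coeffMap_rat_injective
  rw [coeffMap_rat_jS, coeffMap_rat_jS]
  exact rel_fwd_K hA hp hζ hn

theorem rel_bwd (hA : IsModEq Φ p K) (hp : p ≠ 0) {ζ : Kˣ} (hζ : IsPrimitiveRoot ζ p)
    {n : ℕ} (hn : n ≠ 0) : Rel Φ (jS ℚ 1 n) (jS ℚ 1 (n * p)) := by
  apply Rel.of_map_injective (coeffMap (algebraMap ℚ K)) coeffMap_rat_injective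
  rw [coeffMap_rat_jS, coeffMap_rat_jS]
  exact rel_bwd_K hA hp hζ hn

end OverQ

end Fermat.Agent.S28.Tower
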