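import Mathlib
import Fermat.Prelude.Def_ModularCurve_X0ModL

/-!
# P-S28 WP-C (tower): shared vocabulary

* `twist ζ` : the ring endomorphism `f(u) ↦ f(ζ u)` of `LaurentSeries R` (`ζ` a unit).
* `expand R m` : `f(u) ↦ f(u^m)` (Prelude `qExpand`, but with `m ≠ 0` as a hypothesis instead of
  an instance argument; junk value `id` for `m = 0`).
* `jS R η m` : the series `j(η u^m)`.
-/

set_option autoImplicit false
noncomputable section

namespace Fermat.Agent.S28.Tower

open ModularCurve Polynomial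

section Twist
variable {R : Type*} [CommRing R]

/-- underlying function of `twist`. -/
def twistFun (ζ : Rˣ) (f : LaurentSeries R) : LaurentSeries R where
  coeff n := ((ζ ^ n : Rˣ) : R) * f.coeff n
  isPWO_support' := f.isPWO_support.mono (fun n hn => by
    simp only [Function.mem_support, ne_eq] at hn
    simp only [HahnSeries.mem_support, ne_eq]
    intro h
    exact hn (by rw [h, mul_zero]))

@[simp] theorem twistFun_coeff (ζ : Rˣ) (f : LaurentSeries R) (n : ℤ) :
    (twistFun ζ f).coeff n = ((ζ ^ n : Rˣ) : R) * f.coeff n := rfl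

theorem twistFun_support (ζ : Rˣ) (f : LaurentSeries R) :
    (twistFun ζ f).support = f.support := by
  ext n
  simp only [HahnSeries.mem_support, ne_eq, twistFun_coeff, Units.mul_right_eq_zero]

theorem twistFun_mul (ζ : Rˣ) (f g : LaurentSeries R) :
    twistFun ζ (f * g) = twistFun ζ f * twistFun ζ g := by
  ext n
  simp only [twistFun_coeff, HahnSeries.coeff_mul, Finset.mul_sum]
  refine Finset.sum_congr ?_ ?_
  · ext ij
    simp only [Finset.mem_antidiagonal, twistFun_support]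
  · intro ij hij
    have h : ij.1 + ij.2 = n := (Finset.mem_antidiagonal.mp hij).2.2
    rw [← h, zpow_add, Units.val_mul]
    ring

/-- `f(u) ↦ f(ζ u)` as a ring endomorphism of Laurent series. -/
def twist (ζ : Rˣ) : LaurentSeries R →+* LaurentSeries R where
  toFun := twistFun ζ
  map_one' := by
    ext n
    by_cases hn : n = 0
    · subst hn; simp
    · simp [HahnSeries.coeff_one, hn]
  map_mul' := twistFun_mul ζ
  map_zero' := by ext n; simp
  map_add' f g := by ext n; simp [mul_add]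

@[simp] theorem twist_coeff (ζ : Rˣ) (f : LaurentSeries R) (n : ℤ) :
    (twist ζ f).coeff n = ((ζ ^ n : Rˣ) : R) * f.coeff n := rfl

@[simp] theorem twist_one (f : LaurentSeries R) : twist (1 : Rˣ) f = f := by
  ext n; simp

theorem twist_twist (ζ ξ : Rˣ) (f : LaurentSeries R) :
    twist ζ (twist ξ f) = twist (ζ * ξ) f := by
  ext n
  simp only [twist_coeff, mul_zpow, Units.val_mul, mul_assoc]

theorem twist_injective (ζ : Rˣ) : Function.Injective (twist (R := R) ζ) := by
  intro f g h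
  have := congrArg (twist ζ⁻¹) h
  simpa [twist_twist] using this

@[simp] theorem twist_single (ζ : Rˣ) (n : ℤ) (r : R) :
    twist ζ (HahnSeries.single n r) = HahnSeries.single n (((ζ ^ n : Rˣ) : R) * r) := by
  ext m
  by_cases hm : m = n
  · subst hm; simp
  · simp [HahnSeries.coeff_single_of_ne hm]

@[simp] theorem twist_C (ζ : Rˣ) (r : R) : twist ζ (HahnSeries.C r) = HahnSeries.C r := by
  have : (HahnSeries.C r : LaurentSeries R) = HahnSeries.single 0 r := rfl
  rw [this, twist_single]; simp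

end Twist

section Expand
variable (R : Type*) [CommRing R]

/-- `f(u) ↦ f(u^m)`; equals Prelude `qExpand R m` for `m ≠ 0` (junk `id` for `m = 0`). -/
def expand (m : ℕ) : LaurentSeries R →+* LaurentSeries R :=
  if h : m = 0 then RingHom.id _ else @qExpand R _ m ⟨h⟩

theorem expand_eq_qExpand (m : ℕ) [NeZero m] : expand R m = qExpand R m := by
  rw [expand, dif_neg (NeZero.ne m)]

variable {R}

theorem expand_coeff_mul {m : ℕ} (hm : m ≠ 0) (f : LaurentSeries R) (n : ℤ) :
    (expand R m f).coeff ((m : ℤ) * n) = f.coeff n := by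
  have : NeZero m := ⟨hm⟩
  rw [expand_eq_qExpand, qExpand_coeff_mul]

theorem expand_coeff_of_not_dvd {m : ℕ} (hm : m ≠ 0) (f : LaurentSeries R) {n : ℤ}
    (hn : ¬ (m : ℤ) ∣ n) : (expand R m f).coeff n = 0 := by
  have : NeZero m := ⟨hm⟩
  rw [expand_eq_qExpand, qExpand_coeff_of_not_dvd m f hn]

theorem expand_injective {m : ℕ} (hm : m ≠ 0) : Function.Injective (expand R m) := by
  have : NeZero m := ⟨hm⟩
  rw [expand_eq_qExpand]; exact qExpand_injective m

@[simp] theorem expand_one (f : LaurentSeries R) : expand R 1 f = f := by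
  rw [expand_eq_qExpand, qExpand_one_apply]

theorem expand_expand {m n : ℕ} (hm : m ≠ 0) (hn : n ≠ 0) (f : LaurentSeries R) :
    expand R m (expand R n f) = expand R (m * n) f := by
  have : NeZero m := ⟨hm⟩
  have : NeZero n := ⟨hn⟩
  have : NeZero (m * n) := ⟨Nat.mul_ne_zero hm hn⟩
  rw [expand_eq_qExpand, expand_eq_qExpand, expand_eq_qExpand, qExpand_qExpand]

theorem expand_C (m : ℕ) (r : R) : expand R m (HahnSeries.C r) = HahnSeries.C r := by
  by_cases hm : m = 0
  · subst hm; simp [expand]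
  · have : NeZero m := ⟨hm⟩
    rw [expand_eq_qExpand, qExpand_C]

/-- `f(ξ u)` after `u ↦ u^m` is `f(ξ^m u^m)`. -/
theorem twist_expand {m : ℕ} (hm : m ≠ 0) (ξ : Rˣ) (f : LaurentSeries R) :
    twist ξ (expand R m f) = expand R m (twist (ξ ^ m) f) := by
  ext n
  by_cases hn : (m : ℤ) ∣ n
  · obtain ⟨t, rfl⟩ := hn
    rw [twist_coeff, expand_coeff_mul hm, expand_coeff_mul hm, twist_coeff]
    congr 2
    rw [zpow_mul, zpow_natCast]
  · rw [twist_coeff, expand_coeff_of_not_dvd hm _ hn, expand_coeff_of_not_dvd hm _ hn, mul_zero]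

/-- a series in `u^c` is fixed by `u ↦ τ u` when `τ^c = 1`. -/
theorem twist_expand_of_pow_eq_one {c : ℕ} (hc : c ≠ 0) (τ : Rˣ) (hτ : τ ^ c = 1)
    (f : LaurentSeries R) : twist τ (expand R c f) = expand R c f := by
  rw [twist_expand hc, hτ, twist_one]

theorem range_expand_le_of_dvd {c c' : ℕ} (hc : c ≠ 0) (hc' : c' ≠ 0) (h : c ∣ c') :
    (expand R c').range ≤ (expand R c).range := by
  rintro _ ⟨f, rfl⟩
  obtain ⟨t, rfl⟩ := h
  have ht : t ≠ 0 := fun h0 => hc' (by rw [h0, mul_zero])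
  exact ⟨expand R t f, expand_expand hc ht f⟩

end Expand

section JSeries
variable (R : Type*) [CommRing R]

/-- the series `j(η u^m)`. -/
def jS (η : Rˣ) (m : ℕ) : LaurentSeries R := expand R m (twist η (jqModC R))

variable {R}

theorem jS_one_one : jS R 1 1 = jqModC R := by simp [jS]

theorem jS_eq_qExpand (m : ℕ) [NeZero m] : jS R 1 m = qExpand R m (jqModC R) := by
  rw [jS, twist_one, expand_eq_qExpand]

theorem expand_jS {n m : ℕ} (hn : n ≠ 0) (hm : m ≠ 0) (η : Rˣ) :
    expand R n (jS R η m) = jS R η (n * m) := by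
  rw [jS, jS, expand_expand hn hm]

theorem twist_jS {m : ℕ} (hm : m ≠ 0) (ξ η : Rˣ) :
    twist ξ (jS R η m) = jS R (ξ ^ m * η) m := by
  rw [jS, jS, twist_expand hm, twist_twist]

theorem coeff_jS_neg {m : ℕ} (hm : m ≠ 0) (η : Rˣ) :
    (jS R η m).coeff (-(m : ℤ)) = ((η⁻¹ : Rˣ) : R) := by
  have h : -(m : ℤ) = (m : ℤ) * (-1) := by ring
  rw [jS, h, expand_coeff_mul hm, twist_coeff, coeff_jqModC_neg_one, mul_one, zpow_neg_one]

theorem coeff_jS_of_lt {m : ℕ} (hm : m ≠ 0) (η : Rˣ) {n : ℤ} (hn : n < -(m : ℤ)) :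
    (jS R η m).coeff n = 0 := by
  by_cases hd : (m : ℤ) ∣ n
  · obtain ⟨t, rfl⟩ := hd
    rw [jS, expand_coeff_mul hm, twist_coeff, coeff_jqModC_of_lt, mul_zero]
    have hm' : (0 : ℤ) < m := by exact_mod_cast Nat.pos_of_ne_zero hm
    by_contra hcon
    rw [not_lt] at hcon
    nlinarith
  · rw [jS, expand_coeff_of_not_dvd hm _ hd]

theorem jS_mem_range_expand {c m : ℕ} (hc : c ≠ 0) (hm : m ≠ 0) (h : c ∣ m) (η : Rˣ) :
    jS R η m ∈ (expand R c).range :=
  range_expand_le_of_dvd hc hm h ⟨_, rfl⟩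

theorem jS_ne_of_ne_exp {m m' : ℕ} (hm : m ≠ 0) (hm' : m' ≠ 0) (η η' : Rˣ) [Nontrivial R]
    (h : m ≠ m') : jS R η m ≠ jS R η' m' := by
  intro heq
  rcases Nat.lt_or_gt_of_ne h with hlt | hlt
  · have h1 := coeff_jS_neg hm' η'
    rw [← heq, coeff_jS_of_lt hm η (by exact_mod_cast (by omega : -(m' : ℤ) < -(m : ℤ)))] at h1
    exact (Units.ne_zero _) h1.symm
  · have h1 := coeff_jS_neg hm η
    rw [heq, coeff_jS_of_lt hm' η' (by exact_mod_cast (by omega : -(m : ℤ) < -(m' : ℤ)))] at h1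
    exact (Units.ne_zero _) h1.symm

theorem jS_injective_unit {m : ℕ} (hm : m ≠ 0) {η η' : Rˣ} (h : jS R η m = jS R η' m) :
    η = η' := by
  have h1 := coeff_jS_neg hm η
  rw [h, coeff_jS_neg hm η'] at h1
  exact inv_injective (Units.ext h1.symm)

theorem coeffMap_twist {S : Type*} [CommRing S] (f : R →+* S) (η : Rˣ) (x : LaurentSeries R) :
    coeffMap f (twist η x) = twist (Units.map (f : R →* S) η) (coeffMap f x) := by
  ext n
  simp only [coeffMap_coeff, twist_coeff, map_mul]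
  congr 1
  rw [← map_zpow]
  rfl

theorem coeffMap_expand {S : Type*} [CommRing S] (f : R →+* S) (m : ℕ) (x : LaurentSeries R) :
    coeffMap f (expand R m x) = expand S m (coeffMap f x) := by
  by_cases hm : m = 0
  · subst hm; simp [expand]
  · have : NeZero m := ⟨hm⟩
    rw [expand_eq_qExpand, expand_eq_qExpand, coeffMap_qExpand]

theorem coeffMap_jS {S : Type*} [CommRing S] (f : R →+* S) (η : Rˣ) (m : ℕ) :
    coeffMap f (jS R η m) = jS S (Units.map (f : R →* S) η) m := by
  rw [jS, jS, coeffMap_expand, coeffMap_twist, coeffMap_jqModC]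

end JSeries

section ModEq

/-- the ring hom `ℤ[Y] → A`, `Y ↦ a`. -/
def evalAt {A : Type*} [CommRing A] (a : A) : ℤ[X] →+* A :=
  Polynomial.eval₂RingHom (Int.castRingHom A) a

theorem evalAt_comp {A B : Type*} [CommRing A] [CommRing B] (f : A →+* B) (a : A) :
    f.comp (evalAt a) = evalAt (f a) := by
  refine Polynomial.ringHom_ext' (Subsingleton.elim _ _) ?_
  simp [evalAt]

/-- `Φ(X, a)` for a two-variable integer polynomial `Φ ∈ ℤ[Y][X]` (outer variable `X`). -/
def polyAt {A : Type*} [CommRing A] (Φ : ℤ[X][X]) (a : A) : A[X] := Φ.map (evalAt a)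

theorem polyAt_map {A B : Type*} [CommRing A] [CommRing B] (Φ : ℤ[X][X]) (f : A →+* B) (a : A) :
    (polyAt Φ a).map f = polyAt Φ (f a) := by
  rw [polyAt, polyAt, Polynomial.map_map, evalAt_comp]

theorem polyAt_monic {A : Type*} [CommRing A] {Φ : ℤ[X][X]} (h : Φ.Monic) (a : A) :
    (polyAt Φ a).Monic := h.map _

theorem polyAt_natDegree {A : Type*} [CommRing A] [Nontrivial A] {Φ : ℤ[X][X]} (h : Φ.Monic)
    (a : A) : (polyAt Φ a).natDegree = Φ.natDegree := h.natDegree_map _

/-- `Φ(a, b) = 0`. -/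
def Rel {A : Type*} [CommRing A] (Φ : ℤ[X][X]) (a b : A) : Prop := (polyAt Φ b).IsRoot a

theorem Rel.map {A B : Type*} [CommRing A] [CommRing B] {Φ : ℤ[X][X]} {a b : A}
    (h : Rel Φ a b) (f : A →+* B) : Rel Φ (f a) (f b) := by
  unfold Rel at h ⊢
  rw [← polyAt_map Φ f b]
  exact h.map

/-- (A_p) over the ring `R`: the prime-level modular equation with its full factorisation,
in the variable `u = q^(1/p)`:
`Φ(X, j(u^p)) = (X - j(u^(p^2))) * ∏_{i<p} (X - j(ζ^i u))`. -/
def IsModEq (Φ : ℤ[X][X]) (p : ℕ) (R : Type*) [CommRing R] : Prop :=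
  ∀ ζ : Rˣ, IsPrimitiveRoot ζ p →
    polyAt Φ (jS R 1 p) =
      (X - C (jS R 1 (p ^ 2))) * ∏ i ∈ Finset.range p, (X - C (jS R (ζ ^ i) 1))

/-- general instance of (A_p): apply `u ↦ η u^m`. -/
theorem IsModEq.general {Φ : ℤ[X][X]} {p : ℕ} {R : Type*} [CommRing R] (h : IsModEq Φ p R)
    (hp : p ≠ 0) {ζ : Rˣ} (hζ : IsPrimitiveRoot ζ p) (η : Rˣ) {m : ℕ} (hm : m ≠ 0) :
    polyAt Φ (jS R (η ^ p) (m * p)) =
      (X - C (jS R (η ^ (p ^ 2)) (m * p ^ 2))) *
        ∏ i ∈ Finset.range p, (X - C (jS R (ζ ^ i * η) m)) := by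
  have h1 := congrArg (Polynomial.map ((expand R m).comp (twist η))) (h ζ hζ)
  rw [polyAt_map, Polynomial.map_mul, Polynomial.map_sub, Polynomial.map_X, Polynomial.map_C,
    Polynomial.map_prod] at h1
  simp only [Polynomial.map_sub, Polynomial.map_X, Polynomial.map_C, RingHom.comp_apply] at h1
  have hp2 : p ^ 2 ≠ 0 := pow_ne_zero 2 hp
  rw [twist_jS hp, expand_jS hm hp, twist_jS hp2, expand_jS hm hp2, mul_one, mul_one] at h1
  rw [h1]
  congr 1
  refine Finset.prod_congr rfl fun i _ => ?_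
  rw [twist_jS one_ne_zero, expand_jS hm one_ne_zero, pow_one, mul_one, mul_comm]

end ModEq

section Monomials

/-- the monomial `∏_d j(q^d)^(μ d)`. -/
def ev (R : Type*) [CommRing R] (μ : ℕ →₀ ℕ) : LaurentSeries R :=
  μ.prod fun d e => jS R 1 d ^ e

theorem ev_zero (R : Type*) [CommRing R] : ev R 0 = 1 := by simp [ev]

theorem ev_add (R : Type*) [CommRing R] (μ ν : ℕ →₀ ℕ) : ev R (μ + ν) = ev R μ * ev R ν := by
  rw [ev, ev, ev, Finsupp.prod_add_index' (fun _ => pow_zero _) (fun _ _ _ => pow_add _ _ _)]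

theorem ev_single (R : Type*) [CommRing R] (d e : ℕ) :
    ev R (Finsupp.single d e) = jS R 1 d ^ e := by
  rw [ev]
  exact Finsupp.prod_single_index (pow_zero _)

theorem coeffMap_ev {R S : Type*} [CommRing R] [CommRing S] (f : R →+* S) (μ : ℕ →₀ ℕ) :
    coeffMap f (ev R μ) = ev S μ := by
  rw [ev, ev, Finsupp.prod, map_prod, Finsupp.prod]
  refine Finset.prod_congr rfl fun d _ => ?_
  rw [map_pow, coeffMap_jS, map_one]

/-- exponent bounds contributed by the prime power `p^a`: `j(q^p)` up to `p`, and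
`j(q^(p^b))`, `2 ≤ b ≤ a`, up to `p - 1`. -/
def stepBound (p a : ℕ) : ℕ →₀ ℕ :=
  ∑ b ∈ Finset.Icc 1 a, Finsupp.single (p ^ b) (if b = 1 then p else p - 1)

/-- exponent bounds for level `N`. -/
def bound (N : ℕ) : ℕ →₀ ℕ := ∑ p ∈ N.primeFactors, stepBound p (N.factorization p)

/-- the box of exponent vectors: the `ψ(N)` monomials `ev R μ`, `μ ∈ box N`, are the tower
basis of the level-`N` function field over `Q(j)`. -/
def box (N : ℕ) : Finset (ℕ →₀ ℕ) := Finset.Iic (bound N)

theorem mem_box {N : ℕ} {μ : ℕ →₀ ℕ} : μ ∈ box N ↔ μ ≤ bound N := Finset.mem_Iic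

end Monomials

end Fermat.Agent.S28.Tower
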