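import Mathlib
import Fermat.Prelude.Def_ModularCurve_IgusaScheme
import Fermat.Prelude.Def_ModularCurve_JqCoeff
import Fermat.Agent.S28.Tower.Defs
import Fermat.Agent.S28.Tower.CharZeroRel

/-!
# P-S28 WP-C (char 0): (Z1) and (Z2) (helper28)

* (Z1) `ev_mem_full` : for `μ ∈ box N` the monomial `ev ℚ μ` lies in
  `modularFunctionFieldFull N` (no hypothesis).
* (Z2) `ev_mem_chartAlg` : the corresponding element of the function field is integral over
  `ℤ_(ℓ)[j]`, i.e. belongs to `chartAlg N ℓ {jFull N}`, given the monic prime-level modular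
  equations `Φ p` for the primes `p ∣ N`.
-/

set_option autoImplicit false

open Polynomial ModularCurve ModularCurve.IgusaScheme

noncomputable section

namespace Fermat.Agent.S28.Tower

/-! ### integrality along a monic relation -/

/-- if `Φ(x, y) = 0` with `Φ` monic in the outer variable and `y` integral over `A`, then `x` is
integral over `A`. -/
theorem isIntegral_of_rel {A B : Type*} [CommRing A] [CommRing B] [Algebra A B] {Φ : ℤ[X][X]}
    (hΦ : Φ.Monic) {x y : B} (h : Rel Φ x y) (hy : IsIntegral A y) : IsIntegral A x := by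
  let y' : integralClosure A B := ⟨y, hy⟩
  have hx : IsIntegral (integralClosure A B) x := by
    refine ⟨polyAt Φ y', polyAt_monic hΦ y', ?_⟩
    rw [← Polynomial.eval_map, polyAt_map]
    exact h
  exact isIntegral_trans x hx

/-! ### (Z1) -/

theorem jS_rat_eq_qExpand (d : ℕ) [NeZero d] : jS ℚ 1 d = qExpand ℚ d jq := by
  rw [jS_eq_qExpand, jqModC_rat]

theorem jS_mem_full {N d : ℕ} (hd0 : d ≠ 0) (hd : d ∣ N) :
    jS ℚ 1 d ∈ modularFunctionFieldFull N := by
  have : NeZero d := ⟨hd0⟩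
  rw [jS_rat_eq_qExpand]
  exact jqd_mem_full N hd

theorem support_stepBound_subset (p a : ℕ) :
    ((stepBound p a).support : Set ℕ) ⊆ {d | ∃ b, 1 ≤ b ∧ b ≤ a ∧ d = p ^ b} := by
  intro d hd
  rw [Finset.mem_coe, Finsupp.mem_support_iff, stepBound] at hd
  by_contra hcon
  apply hd
  rw [Finsupp.finsetSum_apply]
  refine Finset.sum_eq_zero fun b hb => ?_
  rw [Finset.mem_Icc] at hb
  rw [Finsupp.single_apply, if_neg]
  intro hpb
  exact hcon ⟨b, hb.1, hb.2, hpb.symm⟩

theorem dvd_of_mem_support_bound {N d : ℕ} (hN : N ≠ 0) (hd : d ∈ (bound N).support) :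
    d ≠ 0 ∧ d ∣ N := by
  rw [Finsupp.mem_support_iff, bound] at hd
  have : ∃ p ∈ N.primeFactors, (stepBound p (N.factorization p)) d ≠ 0 := by
    by_contra hcon
    apply hd
    rw [Finsupp.finsetSum_apply]
    refine Finset.sum_eq_zero fun p hp => ?_
    by_contra h
    exact hcon ⟨p, hp, h⟩
  obtain ⟨p, hp, hpd⟩ := this
  have hpp : p.Prime := Nat.prime_of_mem_primeFactors hp
  obtain ⟨b, -, hb, rfl⟩ := support_stepBound_subset p _
    (Finset.mem_coe.mpr (Finsupp.mem_support_iff.mpr hpd))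
  refine ⟨pow_ne_zero b hpp.ne_zero, ?_⟩
  exact (hpp.pow_dvd_iff_le_factorization hN).mpr hb

theorem dvd_of_mem_support_of_mem_box {N d : ℕ} (hN : N ≠ 0) {μ : ℕ →₀ ℕ} (hμ : μ ∈ box N)
    (hd : d ∈ μ.support) : d ≠ 0 ∧ d ∣ N := by
  apply dvd_of_mem_support_bound hN
  rw [Finsupp.mem_support_iff] at hd ⊢
  have h := mem_box.mp hμ d
  omega

/-- **(Z1)** the box monomials lie in the level-`N` function field. -/
theorem ev_mem_full (N : ℕ) [NeZero N] {μ : ℕ →₀ ℕ} (hμ : μ ∈ box N) :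
    ev ℚ μ ∈ modularFunctionFieldFull N := by
  rw [ev, Finsupp.prod]
  refine prod_mem fun d hd => pow_mem ?_ _
  obtain ⟨hd0, hdN⟩ := dvd_of_mem_support_of_mem_box (NeZero.ne N) hμ hd
  exact jS_mem_full hd0 hdN

/-! ### (Z2) -/

section Z2

variable (N : ℕ) [NeZero N] (ℓ : ℕ) [Fact ℓ.Prime]

/-- `j(q^d)` as an element of the level-`N` function field, `d ∣ N`. -/
def jSFull {d : ℕ} (hd0 : d ≠ 0) (hd : d ∣ N) : ↥(modularFunctionFieldFull N) :=
  ⟨jS ℚ 1 d, jS_mem_full hd0 hd⟩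

omit [NeZero N] in
@[simp] theorem coe_jSFull {d : ℕ} (hd0 : d ≠ 0) (hd : d ∣ N) :
    ((jSFull N hd0 hd : ↥(modularFunctionFieldFull N)) : LaurentSeries ℚ) = jS ℚ 1 d := rfl

theorem jSFull_one : jSFull N one_ne_zero (one_dvd N) = jFull N := by
  apply Subtype.ext
  rw [coe_jSFull, coe_jFull, jS_one_one, jqModC_rat]

variable {K : Type*} [Field K] [Algebra ℚ K]

/-- `j(q^d)`, `d ∣ N`, is integral over `ℤ_(ℓ)[j]`. -/
theorem jSFull_mem_chartAlg (Φ : ℕ → ℤ[X][X])
    (hΦ : ∀ p, p.Prime → p ∣ N → (Φ p).Monic ∧ IsModEq (Φ p) p K)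
    (hroots : ∀ p, p.Prime → p ∣ N → ∃ z : Kˣ, IsPrimitiveRoot z p) :
    ∀ (d : ℕ) (hd0 : d ≠ 0) (hd : d ∣ N), jSFull N hd0 hd ∈ chartAlg N ℓ {jFull N} := by
  intro d
  induction d using Nat.strong_induction_on with
  | _ d ih =>
    intro hd0 hd
    by_cases h1 : d = 1
    · subst h1
      rw [jSFull_one]
      exact subset_chartAlg N ℓ _ rfl
    · obtain ⟨p, hp, hpd⟩ := Nat.exists_prime_and_dvd h1
      obtain ⟨n, rfl⟩ := hpd
      have hn0 : n ≠ 0 := fun h => hd0 (by rw [h, mul_zero])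
      have hnN : n ∣ N := (Dvd.intro_left p rfl).trans hd
      have hpN : p ∣ N := (Dvd.intro n rfl).trans hd
      have hlt : n < p * n := by
        have := hp.two_le
        nlinarith [Nat.pos_of_ne_zero hn0]
      have ihn := ih n hlt hn0 hnN
      obtain ⟨hmon, hA⟩ := hΦ p hp hpN
      obtain ⟨ζ, hζ⟩ := hroots p hp hpN
      have hrel : Rel (Φ p) (jS ℚ 1 (n * p)) (jS ℚ 1 n) := rel_fwd hA hp.ne_zero hζ hn0
      rw [mem_chartAlg_iff] at ihn ⊢
      refine isIntegral_of_rel hmon ?_ ihn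
      apply Rel.of_map_injective
        (algebraMap ↥(modularFunctionFieldFull N) (LaurentSeries ℚ)) Subtype.val_injective
      rw [IntermediateField.algebraMap_apply, IntermediateField.algebraMap_apply, coe_jSFull,
        coe_jSFull, mul_comm p n]
      exact hrel

/-- **(Z2)** the box monomials are integral over `ℤ_(ℓ)[j]`. -/
theorem ev_mem_chartAlg (Φ : ℕ → ℤ[X][X])
    (hΦ : ∀ p, p.Prime → p ∣ N → (Φ p).Monic ∧ IsModEq (Φ p) p K)
    (hroots : ∀ p, p.Prime → p ∣ N → ∃ z : Kˣ, IsPrimitiveRoot z p)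
    {μ : ℕ →₀ ℕ} (hμ : μ ∈ box N) :
    (⟨ev ℚ μ, ev_mem_full N hμ⟩ : ↥(modularFunctionFieldFull N)) ∈ chartAlg N ℓ {jFull N} := by
  have key : (⟨ev ℚ μ, ev_mem_full N hμ⟩ : ↥(modularFunctionFieldFull N)) =
      ∏ d ∈ μ.support.attach, jSFull N
        (dvd_of_mem_support_of_mem_box (NeZero.ne N) hμ d.2).1
        (dvd_of_mem_support_of_mem_box (NeZero.ne N) hμ d.2).2 ^ μ d.1 := by
    apply Subtype.ext
    rw [← IntermediateField.algebraMap_apply (modularFunctionFieldFull N)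
      (∏ d ∈ μ.support.attach, _), map_prod]
    simp only [map_pow, IntermediateField.algebraMap_apply, coe_jSFull]
    rw [ev, Finsupp.prod, ← Finset.prod_attach]
  rw [key]
  exact prod_mem fun d _ => pow_mem (jSFull_mem_chartAlg N ℓ Φ hΦ hroots _ _ _) _

end Z2

end Fermat.Agent.S28.Tower
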