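import Fermat.Agent.S28.Tower.ModL

/-!
# P-S28 WP-C (tower): the induction over the prime factorisation
-/

set_option autoImplicit false
noncomputable section

namespace Fermat.Agent.S28.Tower

open ModularCurve Polynomial

section Combinatorics

/-- extending an injective enumeration of `Iic β` by one more coordinate. -/
theorem range_extend_Iic {ι ι' : Type*} (mon : ι → ℕ →₀ ℕ) (β : ℕ →₀ ℕ)
    (hinj : Function.Injective mon) (hrange : Set.range mon = Set.Iic β) (d n : ℕ) (hn : 0 < n)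
    (hd : β d = 0) (e : ι × Fin n ≃ ι') (mon' : ι' → ℕ →₀ ℕ)
    (hmon' : ∀ i j, mon' (e (i, j)) = mon i + Finsupp.single d (j : ℕ)) :
    Function.Injective mon' ∧ Set.range mon' = Set.Iic (β + Finsupp.single d (n - 1)) := by
  have hle : ∀ i, mon i ≤ β := fun i => by
    have : mon i ∈ Set.Iic β := hrange ▸ Set.mem_range_self i
    exact this
  have hmd : ∀ i, mon i d = 0 := fun i => by
    have := hle i d
    rw [hd] at this
    exact Nat.le_zero.mp this
  constructor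
  · intro a b hab
    obtain ⟨⟨i, j⟩, rfl⟩ := e.surjective a
    obtain ⟨⟨i', j'⟩, rfl⟩ := e.surjective b
    rw [hmon', hmon'] at hab
    have h1 := DFunLike.congr_fun hab d
    simp only [Finsupp.coe_add, Pi.add_apply, Finsupp.single_eq_same, hmd, zero_add] at h1
    have hj : j = j' := Fin.ext h1
    subst hj
    have h2 : mon i = mon i' := add_right_cancel hab
    rw [hinj h2]
  · ext μ
    simp only [Set.mem_range, Set.mem_Iic]
    constructor
    · rintro ⟨a, rfl⟩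
      obtain ⟨⟨i, j⟩, rfl⟩ := e.surjective a
      rw [hmon']
      refine add_le_add (hle i) ?_
      rw [Finsupp.single_le_single]
      have := j.2
      omega
    · intro hμ
      have hμd : μ d ≤ n - 1 := by
        have := hμ d
        simpa [hd] using this
      have hν : μ.erase d ≤ β := by
        intro x
        by_cases hx : x = d
        · subst hx; simp
        · rw [Finsupp.erase_ne hx]
          have := hμ x
          simpa [Finsupp.single_eq_of_ne hx] using this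
      obtain ⟨i, hi⟩ : μ.erase d ∈ Set.range mon := by rw [hrange]; exact hν
      refine ⟨e (i, ⟨μ d, by omega⟩), ?_⟩
      rw [hmon', hi]
      exact Finsupp.erase_add_single d μ

end Combinatorics

section Monomials

variable {k : Type} [Field k] {D : ℕ}

/-- the basis of `st` is mapped by `fwd` to the forward monomials with exponent vectors `≤ β`. -/
def HasMonomials (st : TowerState (E₀ k D) (LaurentSeries k)) (β : ℕ →₀ ℕ) : Prop :=
  ∃ mon : st.ι → (ℕ →₀ ℕ), Function.Injective mon ∧ Set.range mon = Set.Iic β ∧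
    ∀ i, st.fwd (st.basis i) = expand k D (ev k (mon i))

theorem HasMonomials.extend {st st' : TowerState (E₀ k D) (LaurentSeries k)} {β : ℕ →₀ ℕ}
    (h : HasMonomials st β) (hD : D ≠ 0) (incl : st.E →ₐ[E₀ k D] st'.E)
    (hfwd : ∀ e, st'.fwd (incl e) = st.fwd e) (y' : st'.E) {d : ℕ} (hd0 : d ≠ 0)
    (hy' : st'.fwd y' = jS k 1 (D * d)) {n : ℕ} (hn : 0 < n) (hβ : β d = 0)
    (e : st.ι × Fin n ≃ st'.ι)
    (he : ∀ i j, st'.basis (e (i, j)) = incl (st.basis i) * y' ^ (j : ℕ)) :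
    HasMonomials st' (β + Finsupp.single d (n - 1)) := by
  obtain ⟨mon, hinj, hrange, hmon⟩ := h
  let mon' : st'.ι → (ℕ →₀ ℕ) := fun a => mon (e.symm a).1 + Finsupp.single d ((e.symm a).2 : ℕ)
  have hmon' : ∀ i j, mon' (e (i, j)) = mon i + Finsupp.single d (j : ℕ) := fun i j => by
    simp only [mon', Equiv.symm_apply_apply]
  obtain ⟨h1, h2⟩ := range_extend_Iic mon β hinj hrange d n hn hβ e mon' hmon'
  refine ⟨mon', h1, h2, fun a => ?_⟩
  obtain ⟨⟨i, j⟩, rfl⟩ := e.surjective a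
  rw [he, map_mul, map_pow, hfwd, hmon, hy', hmon', ev_add, ev_single, map_mul, map_pow,
    expand_jS hD hd0]

end Monomials

section Bounds

theorem stepBound_zero (p : ℕ) : stepBound p 0 = 0 := by
  simp [stepBound]

theorem stepBound_succ (p b : ℕ) :
    stepBound p (b + 1) =
      stepBound p b + Finsupp.single (p ^ (b + 1)) (if b + 1 = 1 then p else p - 1) := by
  rw [stepBound, stepBound, Finset.sum_Icc_succ_top (by omega)]

theorem stepBound_apply_pow_of_lt {p : ℕ} (hp : p.Prime) {b i : ℕ} (hi : b < i) :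
    stepBound p b (p ^ i) = 0 := by
  rw [stepBound, Finsupp.finsetSum_apply]
  refine Finset.sum_eq_zero fun c hc => ?_
  rw [Finset.mem_Icc] at hc
  rw [Finsupp.single_eq_of_ne]
  intro h
  have := Nat.pow_right_injective hp.two_le h
  omega

theorem stepBound_apply_pow_of_ne {p q : ℕ} (hp : p.Prime) (hq : q.Prime) (hpq : p ≠ q) (a : ℕ)
    {i : ℕ} (hi : 0 < i) : stepBound q a (p ^ i) = 0 := by
  rw [stepBound, Finsupp.finsetSum_apply]
  refine Finset.sum_eq_zero fun c hc => ?_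
  rw [Finset.mem_Icc] at hc
  rw [Finsupp.single_eq_of_ne]
  intro h
  have h1 : p ∣ q ^ c := by rw [← h]; exact dvd_pow_self p hi.ne'
  have h2 := (Nat.prime_dvd_prime_iff_eq hp hq).mp (hp.dvd_of_dvd_pow h1)
  exact hpq h2

theorem bound_apply_pow_of_not_dvd {p M : ℕ} (hp : p.Prime) (hpM : ¬ p ∣ M) {i : ℕ}
    (hi : 0 < i) : bound M (p ^ i) = 0 := by
  rw [bound, Finsupp.finsetSum_apply]
  refine Finset.sum_eq_zero fun q hq => ?_
  have hq' := Nat.prime_of_mem_primeFactors hq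
  have hqM := Nat.dvd_of_mem_primeFactors hq
  exact stepBound_apply_pow_of_ne hp hq' (fun h => hpM (h ▸ hqM)) _ hi

theorem bound_one : bound 1 = 0 := by
  simp [bound]

theorem bound_pow_mul {p M a : ℕ} (hp : p.Prime) (hpM : ¬ p ∣ M) (ha : 0 < a) (hM : M ≠ 0) :
    bound (p ^ a * M) = bound M + stepBound p a := by
  have hpa : p ^ a ≠ 0 := pow_ne_zero a hp.ne_zero
  have hpf : (p ^ a * M).primeFactors = insert p M.primeFactors := by
    rw [Nat.primeFactors_mul hpa hM, Nat.primeFactors_prime_pow ha.ne' hp]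
    rfl
  have hpnot : p ∉ M.primeFactors := fun h => hpM (Nat.dvd_of_mem_primeFactors h)
  rw [bound, hpf, Finset.sum_insert hpnot, add_comm]
  congr 1
  · refine Finset.sum_congr rfl fun q hq => ?_
    have hq' := Nat.prime_of_mem_primeFactors hq
    have hqp : q ≠ p := fun h => hpnot (h ▸ hq)
    rw [Nat.factorization_mul hpa hM, Finsupp.add_apply, Nat.factorization_pow,
      Finsupp.smul_apply, hp.factorization, Finsupp.single_eq_of_ne hqp, smul_zero,
      zero_add]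
  · rw [Nat.factorization_mul hpa hM, Finsupp.add_apply, Nat.factorization_pow,
      Finsupp.smul_apply, hp.factorization, Finsupp.single_eq_same,
      Nat.factorization_eq_zero_of_not_dvd hpM, add_zero, smul_eq_mul, mul_one]

end Bounds

section Base

variable {k : Type} [Field k] {D : ℕ}

theorem mem_range_expand_of_mem_E₀ (hD : D ≠ 0) {x : LaurentSeries k} (hx : x ∈ E₀ k D) :
    ∃ f, x = expand k D f := by
  have : NeZero D := ⟨hD⟩
  have hle : E₀ k D ≤ (qExpandAlgHomC k D).fieldRange := by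
    rw [IntermediateField.adjoin_le_iff]
    rintro _ rfl
    exact ⟨jqModC k, by
      show qExpandAlgHomC k D (jqModC k) = _
      rw [qExpandAlgHomC_apply, ← jS_eq_qExpand]⟩
  obtain ⟨f, hf⟩ := hle hx
  exact ⟨f, by rw [expand_eq_qExpand]; exact hf.symm⟩

theorem landsIn_base (hD : D ≠ 0) :
    LandsIn (TowerState.base : TowerState (E₀ k D) (LaurentSeries k)) D := by
  intro ψ e
  change E₀ k D at e
  obtain ⟨f, hf⟩ := mem_range_expand_of_mem_E₀ hD (x := (e : LaurentSeries k)) e.2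
  refine ⟨f, ?_⟩
  have h1 : ψ e = algebraMap (E₀ k D) (AlgebraicClosure (LaurentSeries k)) e :=
    ψ.commutes e
  rw [h1, IsScalarTower.algebraMap_apply (E₀ k D) (LaurentSeries k)
    (AlgebraicClosure (LaurentSeries k)), ← hf]
  rfl

theorem hasMonomials_base :
    HasMonomials (TowerState.base : TowerState (E₀ k D) (LaurentSeries k)) 0 := by
  refine ⟨fun _ => 0, fun (a b : Unit) _ => Subsingleton.elim a b, ?_, fun (i : Unit) => ?_⟩
  · ext μ
    simp only [Set.mem_range, Set.mem_Iic, nonpos_iff_eq_zero]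
    constructor
    · rintro ⟨_, h⟩; exact h.symm
    · intro h; exact ⟨(), h.symm⟩
  · show (Algebra.ofId (E₀ k D) (LaurentSeries k)) (Module.Basis.singleton Unit (E₀ k D) i) = _
    rw [Module.Basis.singleton_apply, map_one, ev_zero, map_one]

end Base

section Loop

variable (k : Type) [Field k] (D : ℕ)

/-- loop invariant: `j(q^p), …, j(q^(p^(b+1)))` have been adjoined; `t` steps remain. -/
def LoopInv (p D₀ c₀ : ℕ) (β : ℕ →₀ ℕ) (b t : ℕ) : Prop :=
  ∃ (st : TowerState (E₀ k D) (LaurentSeries k)) (y yp : st.E),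
    st.rev y = jS k 1 (D₀ * p ^ t) ∧ st.rev yp = jS k 1 (D₀ * p ^ (t + 1)) ∧
    st.fwd y = jS k 1 (D * p ^ (b + 1)) ∧ st.fwd yp = jS k 1 (D * p ^ b) ∧
    LandsIn st (c₀ * p ^ t) ∧ ChainProp st y (D₀ * p ^ t) ∧
    HasMonomials st (β + stepBound p (b + 1))

variable {k D} [IsAlgClosed k]

omit [IsAlgClosed k] in
theorem natCast_ne_zero_of_dvd {c : ℕ} (hDk : (D : k) ≠ 0) (h : c ∣ D) : (c : k) ≠ 0 := by
  obtain ⟨e, rfl⟩ := h
  intro hc
  apply hDk
  rw [Nat.cast_mul, hc, zero_mul]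

theorem not_dvd_aux {p D₀ c₀ t : ℕ} (hp : p.Prime) (hpD₀ : ¬ p ∣ D₀) :
    ¬ c₀ * p ^ (t + 1) ∣ D₀ * p ^ t := by
  intro h
  apply hpD₀
  have h1 : p ^ t * p ∣ p ^ t * D₀ := by
    rw [← pow_succ, mul_comm (p ^ t) D₀]
    exact (Dvd.intro_left c₀ rfl).trans h
  exact (Nat.mul_dvd_mul_iff_left (pow_pos hp.pos t)).mp h1

theorem loop_base {Φ : ℤ[X][X]} {p : ℕ} (hp : p.Prime) (hΦm : Φ.Monic)
    (hΦd : Φ.natDegree = p + 1) (hA : IsModEq Φ p k) (hB : Irreducible (polyAt Φ (gen₀ k D)))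
    (hDk : (D : k) ≠ 0) {D₀ c₀ t : ℕ} (hD : D = D₀ * p ^ (t + 1)) (hpD₀ : ¬ p ∣ D₀)
    (hc₀ : c₀ ∣ D₀) {β : ℕ →₀ ℕ} (hβ : ∀ i, 0 < i → β (p ^ i) = 0)
    (st : TowerState (E₀ k D) (LaurentSeries k)) (hL : LandsIn st (c₀ * p ^ (t + 1)))
    (hM : HasMonomials st β) : LoopInv k D p D₀ c₀ β 0 t := by
  have hD0 : D ≠ 0 := by rintro rfl; simp at hDk
  have hp0 : p ≠ 0 := hp.ne_zero
  have hD₀0 : D₀ ≠ 0 := by rintro rfl; simp at hD; exact hD0 hD
  have hc₀0 : c₀ ≠ 0 := by rintro rfl; exact hD₀0 (zero_dvd_iff.mp hc₀)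
  have hm : D₀ * p ^ t ≠ 0 := Nat.mul_ne_zero hD₀0 (pow_ne_zero t hp0)
  have hDm : D = D₀ * p ^ t * p := by rw [hD, pow_succ, mul_assoc]
  have hcD : c₀ * p ^ (t + 1) ∣ D := by rw [hD]; exact Nat.mul_dvd_mul_right hc₀ _
  obtain ⟨st', incl, y', h1, h2, h3, h4, h5, h6, e, he⟩ :=
    step_new hp hΦm hΦd hA hB st hDm hm (natCast_ne_zero_of_dvd hDk hcD)
      (Nat.mul_ne_zero hc₀0 (pow_ne_zero t hp0)) hL (by rw [← hDm]; exact hcD)
      (not_dvd_aux hp hpD₀) (Nat.mul_dvd_mul_left c₀ (pow_dvd_pow p (Nat.le_succ t)))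
      (Nat.mul_dvd_mul_right hc₀ _)
  refine ⟨st', y', algebraMap (E₀ k D) st'.E (gen₀ k D), h4, ?_, ?_, ?_, h5, h6, ?_⟩
  · rw [AlgHom.commutes, algebraMap_gen₀, hD]
  · rw [h3, zero_add, pow_one]
  · rw [AlgHom.commutes, algebraMap_gen₀, pow_zero, mul_one]
  · have hM' := hM.extend hD0 incl h1 y' (d := p) hp0 h3 (Nat.succ_pos p)
      (by simpa using hβ 1 one_pos) e he
    have hsb : stepBound p (0 + 1) = Finsupp.single p (p + 1 - 1) := by
      rw [stepBound_succ, stepBound_zero, zero_add, zero_add, pow_one, if_pos rfl,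
        Nat.add_sub_cancel]
    rw [hsb]
    exact hM'

theorem loop_step {Φ : ℤ[X][X]} {p : ℕ} (hp : p.Prime) (hΦm : Φ.Monic)
    (hΦd : Φ.natDegree = p + 1) (hA : IsModEq Φ p k)
    (hDk : (D : k) ≠ 0) {D₀ c₀ b t : ℕ} (hD : D = D₀ * p ^ (b + t + 2)) (hpD₀ : ¬ p ∣ D₀)
    (hc₀ : c₀ ∣ D₀) {β : ℕ →₀ ℕ} (hβ : ∀ i, 0 < i → β (p ^ i) = 0)
    (h : LoopInv k D p D₀ c₀ β b (t + 1)) : LoopInv k D p D₀ c₀ β (b + 1) t := by
  obtain ⟨st, y, yp, hry, hryp, hfy, hfyp, hL, hch, hM⟩ := h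
  have hD0 : D ≠ 0 := by rintro rfl; simp at hDk
  have hp0 : p ≠ 0 := hp.ne_zero
  have hD₀0 : D₀ ≠ 0 := by rintro rfl; simp at hD; exact hD0 hD
  have hc₀0 : c₀ ≠ 0 := by rintro rfl; exact hD₀0 (zero_dvd_iff.mp hc₀)
  have hm : D₀ * p ^ t ≠ 0 := Nat.mul_ne_zero hD₀0 (pow_ne_zero t hp0)
  have hF : D * p ^ b ≠ 0 := Nat.mul_ne_zero hD0 (pow_ne_zero b hp0)
  have hcD : c₀ * p ^ (t + 1) ∣ D := by
    rw [hD]
    exact Nat.mul_dvd_mul hc₀ (pow_dvd_pow p (by omega))
  have e1 : D₀ * p ^ (t + 1) = D₀ * p ^ t * p := by rw [pow_succ, mul_assoc]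
  have e2 : D₀ * p ^ (t + 1 + 1) = D₀ * p ^ t * p ^ 2 := by rw [pow_add, pow_add]; ring
  have e3 : D * p ^ (b + 1) = D * p ^ b * p := by rw [pow_succ, mul_assoc]
  obtain ⟨st', incl, y', h1, h2, h3, h4, h5, h6, e, he⟩ :=
    step_rep hp hΦm hΦd hA st y yp hm hF (natCast_ne_zero_of_dvd hDk hcD)
      (Nat.mul_ne_zero hc₀0 (pow_ne_zero t hp0)) (by rw [hry, e1]) (by rw [hryp, e2])
      (by rw [hfy, e3]) hfyp hL (by rw [← e1]; exact Nat.mul_dvd_mul_right hc₀ _)
      (not_dvd_aux hp hpD₀) (Nat.mul_dvd_mul_left c₀ (pow_dvd_pow p (Nat.le_succ t)))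
      (Nat.mul_dvd_mul_right hc₀ _) (by rw [← e1]; exact hch)
  have e4 : D * p ^ b * p ^ 2 = D * p ^ (b + 1 + 1) := by rw [pow_add, pow_add]; ring
  refine ⟨st', y', incl y, h4, ?_, ?_, ?_, h5, h6, ?_⟩
  · rw [h2, hry]
  · rw [h3, e4]
  · rw [h1, hfy]
  · have hβ' : (β + stepBound p (b + 1)) (p ^ (b + 1 + 1)) = 0 := by
      rw [Finsupp.add_apply, hβ _ (Nat.succ_pos _),
        stepBound_apply_pow_of_lt hp (Nat.lt_succ_self _)]
    have hM' := hM.extend hD0 incl h1 y' (d := p ^ (b + 1 + 1)) (pow_ne_zero _ hp0)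
      (by rw [h3, e4]) hp.pos hβ' e he
    rw [stepBound_succ p (b + 1), if_neg (by omega), ← add_assoc]
    exact hM'

theorem loop_all {Φ : ℤ[X][X]} {p : ℕ} (hp : p.Prime) (hΦm : Φ.Monic)
    (hΦd : Φ.natDegree = p + 1) (hA : IsModEq Φ p k) (hB : Irreducible (polyAt Φ (gen₀ k D)))
    (hDk : (D : k) ≠ 0) {D₀ c₀ a : ℕ} (hD : D = D₀ * p ^ a) (hpD₀ : ¬ p ∣ D₀)
    (hc₀ : c₀ ∣ D₀) {β : ℕ →₀ ℕ} (hβ : ∀ i, 0 < i → β (p ^ i) = 0)
    (st : TowerState (E₀ k D) (LaurentSeries k)) (hL : LandsIn st (c₀ * p ^ a))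
    (hM : HasMonomials st β) : ∀ b t, b + t + 1 = a → LoopInv k D p D₀ c₀ β b t := by
  intro b
  induction b with
  | zero =>
    intro t ht
    have hta : t + 1 = a := by omega
    subst hta
    exact loop_base hp hΦm hΦd hA hB hDk hD hpD₀ hc₀ hβ st hL hM
  | succ b ih =>
    intro t ht
    have h1 := ih (t + 1) (by omega)
    refine loop_step hp hΦm hΦd hA hDk ?_ hpD₀ hc₀ hβ h1
    rw [hD]
    congr 2
    omega

/-- adjoining the whole `p`-part. -/
theorem prime_power_step {Φ : ℤ[X][X]} {p : ℕ} (hp : p.Prime) (hΦm : Φ.Monic)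
    (hΦd : Φ.natDegree = p + 1) (hA : IsModEq Φ p k) (hB : Irreducible (polyAt Φ (gen₀ k D)))
    (hDk : (D : k) ≠ 0) {D₀ c₀ a : ℕ} (ha : 0 < a) (hD : D = D₀ * p ^ a) (hpD₀ : ¬ p ∣ D₀)
    (hc₀ : c₀ ∣ D₀) {β : ℕ →₀ ℕ} (hβ : ∀ i, 0 < i → β (p ^ i) = 0)
    (st : TowerState (E₀ k D) (LaurentSeries k)) (hL : LandsIn st (c₀ * p ^ a))
    (hM : HasMonomials st β) :
    ∃ st' : TowerState (E₀ k D) (LaurentSeries k),
      LandsIn st' c₀ ∧ HasMonomials st' (β + stepBound p a) := by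
  obtain ⟨a', rfl⟩ : ∃ a', a = a' + 1 := ⟨a - 1, by omega⟩
  obtain ⟨st', y, yp, -, -, -, -, hL', -, hM'⟩ :=
    loop_all hp hΦm hΦd hA hB hDk hD hpD₀ hc₀ hβ st hL hM a' 0 (by omega)
  refine ⟨st', ?_, hM'⟩
  simpa using hL'

/-- **The tower exists**: for every unitary divisor `M` of `D`. -/
theorem exists_state (Φ : ℕ → ℤ[X][X]) (hDk : (D : k) ≠ 0)
    (hΦ : ∀ p, p.Prime → p ∣ D → (Φ p).Monic ∧ (Φ p).natDegree = p + 1 ∧ IsModEq (Φ p) p k ∧
      Irreducible (polyAt (Φ p) (gen₀ k D))) :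
    ∀ M c, D = M * c → Nat.Coprime M c →
      ∃ st : TowerState (E₀ k D) (LaurentSeries k), LandsIn st c ∧ HasMonomials st (bound M) := by
  have hD0 : D ≠ 0 := by rintro rfl; simp at hDk
  intro M
  induction M using Nat.recOnPrimePow with
  | zero =>
    intro c hc
    exact absurd (by simpa using hc) hD0
  | one =>
    intro c hc _
    rw [one_mul] at hc
    subst hc
    exact ⟨TowerState.base, landsIn_base hD0, by rw [bound_one]; exact hasMonomials_base⟩
  | prime_pow_mul a p n hp hpa hn ih =>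
    intro c hc hcop
    have ha0 : a ≠ 0 := by rintro rfl; simp at hc; exact hD0 hc
    have hpc : ¬ p ∣ c := by
      intro h
      have h1 : p ∣ p ^ n * a := Dvd.dvd.mul_right (dvd_pow_self p hn.ne') a
      exact hp.one_lt.ne' (Nat.eq_one_of_dvd_coprimes hcop h1 h)
    have hcop1 : Nat.Coprime a (c * p ^ n) := by
      refine Nat.Coprime.mul_right ?_ ?_
      · exact Nat.Coprime.coprime_dvd_left (Dvd.intro_left _ rfl) hcop
      · exact (Nat.Coprime.pow_left n ((Nat.Prime.coprime_iff_not_dvd hp).mpr hpa)).symm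
    obtain ⟨st, hL, hM⟩ := ih (c * p ^ n) (by rw [hc]; ring) hcop1
    obtain ⟨hΦm, hΦd, hA, hB⟩ := hΦ p hp (by
      rw [hc]; exact Dvd.dvd.mul_right (Dvd.dvd.mul_right (dvd_pow_self p hn.ne') a) c)
    have hpD₀ : ¬ p ∣ a * c := fun h => (hp.dvd_mul.mp h).elim hpa hpc
    obtain ⟨st', hL', hM'⟩ := prime_power_step hp hΦm hΦd hA hB hDk hn
      (D₀ := a * c) (c₀ := c) (by rw [hc]; ring) hpD₀ (Dvd.intro_left a rfl)
      (fun i hi => bound_apply_pow_of_not_dvd hp hpa hi) st hL hM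
    exact ⟨st', hL', by rw [bound_pow_mul hp hpa hn ha0]; exact hM'⟩

/-- **Main theorem of the tower (over an algebraically closed field `k` with `(N : k) ≠ 0`)**:
the `ψ(N)` forward monomials are linearly independent over `k(j̄)`. Stated in the variable `u`,
`q = u^N`. -/
theorem linearIndependent_expand_ev {N : ℕ} (Φ : ℕ → ℤ[X][X]) (hNk : (N : k) ≠ 0)
    (hΦ : ∀ p, p.Prime → p ∣ N → (Φ p).Monic ∧ (Φ p).natDegree = p + 1 ∧ IsModEq (Φ p) p k ∧
      Irreducible (polyAt (Φ p) (gen₀ k N))) :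
    LinearIndependent (E₀ k N) (fun μ : box N => expand k N (ev k (μ : ℕ →₀ ℕ))) := by
  obtain ⟨st, -, mon, hinj, hrange, hmon⟩ :=
    exists_state Φ hNk hΦ N 1 (mul_one N).symm (Nat.coprime_one_right N)
  have hmem : ∀ i, mon i ∈ box N := fun i => by
    rw [mem_box]
    have : mon i ∈ Set.Iic (bound N) := hrange ▸ Set.mem_range_self i
    exact this
  let f : st.ι → box N := fun i => ⟨mon i, hmem i⟩
  have hf : Function.Bijective f := by
    constructor
    · intro a b hab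
      exact hinj (Subtype.ext_iff.mp hab)
    · rintro ⟨μ, hμ⟩
      have : μ ∈ Set.range mon := by rw [hrange]; exact mem_box.mp hμ
      obtain ⟨i, rfl⟩ := this
      exact ⟨i, rfl⟩
  have hli : LinearIndependent (E₀ k N) (st.fwd.toLinearMap ∘ st.basis) :=
    st.basis.linearIndependent.map' st.fwd.toLinearMap
      (LinearMap.ker_eq_bot.mpr st.fwd.toRingHom.injective)
  rw [← linearIndependent_equiv (Equiv.ofBijective f hf)]
  convert hli using 1
  ext i : 1
  simp only [Function.comp_apply, Equiv.ofBijective_apply, AlgHom.toLinearMap_apply, f]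
  exact (hmon i).symm

end Loop

end Fermat.Agent.S28.Tower
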