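import Fermat.Agent.S28.Tower.CharZeroRel
import Fermat.Agent.S28.Tower.Composite
import Fermat.Agent.S28.Tower.Induction

/-!
# P-S28 WP-C, characteristic zero half (helper82)

`K0 = ℚ(j)`.  The box monomials `ev ℚ μ`, `μ ∈ box N`, span over `ℚ(j)` the `ℚ(j)`-algebra generated
by the `j(q^(p^b))`, `p^b ∣ N` (tower of monic relations of degrees `p + 1`, `p`), which is a field
and contains every `j(q^d)`, `d ∣ N` (helper86's composite-level lemma).  Hence
`full_le_span : modularFunctionFieldFull N ≤ span_{ℚ(j)} (ev ℚ '' box N)`.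
-/

set_option autoImplicit false

open Polynomial ModularCurve

noncomputable section

namespace Fermat.Agent.S28.Tower

/-- **Tower step**: if `S` spans the subalgebra `B` and `g` is a root of a monic polynomial of
degree `n + 1` over `B`, then the products `s * g ^ e` (`s ∈ S`, `e ≤ n`) span `B[g]`. -/
theorem span_mul_pow_eq_adjoin
    {K L : Type*} [Field K] [CommRing L] [Algebra K L]
    (B : Subalgebra K L) (S : Set L) (hS : Submodule.span K S = Subalgebra.toSubmodule B)
    (g : L) (n : ℕ) (f : B[X]) (hf : f.Monic) (hdeg : f.natDegree = n + 1)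
    (hroot : Polynomial.aeval g f = 0) :
    Submodule.span K {x | ∃ s ∈ S, ∃ e ≤ n, x = s * g ^ e}
      = Subalgebra.toSubmodule (Algebra.adjoin K ((B : Set L) ∪ {g})) := by
  have hSB : S ⊆ (B : Set L) := by
    intro s hs
    have : s ∈ Submodule.span K S := Submodule.subset_span hs
    rw [hS] at this
    exact this
  apply le_antisymm
  · rw [Submodule.span_le]
    rintro x ⟨s, hs, e, -, rfl⟩
    show s * g ^ e ∈ Algebra.adjoin K ((B : Set L) ∪ {g})
    refine mul_mem (Algebra.subset_adjoin (Or.inl (hSB hs))) (pow_mem ?_ e)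
    exact Algebra.subset_adjoin (Or.inr rfl)
  · intro x hx
    rw [Subalgebra.mem_toSubmodule, Algebra.adjoin_union_eq_adjoin_adjoin] at hx
    have hx' : x ∈ Algebra.adjoin B ({g} : Set L) := by
      have hB : Algebra.adjoin K (B : Set L) = B := Algebra.adjoin_eq B
      rw [hB] at hx
      exact hx
    rw [Algebra.adjoin_singleton_eq_range_aeval] at hx'
    obtain ⟨p, rfl⟩ := hx'
    have hmod : aeval g p = aeval g (p %ₘ f) := by
      conv_lhs => rw [← modByMonic_add_div p f, map_add, map_mul, hroot, zero_mul, add_zero]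
    show aeval g p ∈ _
    rw [hmod, aeval_eq_sum_range]
    refine Submodule.sum_mem _ fun k hk => ?_
    have hk' : k ≤ n := by
      have h1 : (p %ₘ f).natDegree < f.natDegree := natDegree_modByMonic_lt p hf (by
        intro h1
        rw [h1, natDegree_one] at hdeg
        omega)
      have := Finset.mem_range.mp hk
      omega
    -- the coefficient is in `B = span S`
    set b : B := (p %ₘ f).coeff k
    have hb : (b : L) ∈ Submodule.span K S := by rw [hS]; exact b.2
    rw [Algebra.smul_def]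
    show (b : L) * g ^ k ∈ _
    -- linearity in `b`
    have key : ∀ y ∈ Submodule.span K S,
        y * g ^ k ∈ Submodule.span K {x | ∃ s ∈ S, ∃ e ≤ n, x = s * g ^ e} := by
      intro y hy
      induction hy using Submodule.span_induction with
      | mem s hs => exact Submodule.subset_span ⟨s, hs, k, hk', rfl⟩
      | zero => rw [zero_mul]; exact Submodule.zero_mem _
      | add y z _ _ hy hz => rw [add_mul]; exact Submodule.add_mem _ hy hz
      | smul c y _ hy => rw [smul_mul_assoc]; exact Submodule.smul_mem _ c hy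
    exact key _ hb

/-- decomposition of a box along a new coordinate. -/
theorem ev_image_Iic_add_single (R : Type*) [CommRing R] (β : ℕ →₀ ℕ) (d n : ℕ) (hd : β d = 0) :
    ev R '' ↑(Finset.Iic (β + Finsupp.single d n))
      = {x | ∃ s ∈ ev R '' ↑(Finset.Iic β), ∃ e ≤ n, x = s * jS R 1 d ^ e} := by
  ext x
  constructor
  · rintro ⟨μ', hμ', rfl⟩
    rw [Finset.mem_coe, Finset.mem_Iic] at hμ'
    refine ⟨ev R (μ'.erase d), ⟨μ'.erase d, ?_, rfl⟩, μ' d, ?_, ?_⟩
    · rw [Finset.mem_coe, Finset.mem_Iic]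
      intro k
      by_cases hk : k = d
      · subst hk; simp
      · rw [Finsupp.erase_ne hk]
        have := hμ' k
        rw [Finsupp.add_apply, Finsupp.single_apply, if_neg (Ne.symm hk), add_zero] at this
        exact this
    · have := hμ' d
      rw [Finsupp.add_apply, Finsupp.single_apply, if_pos rfl, hd, zero_add] at this
      exact this
    · rw [← ev_single, ← ev_add, Finsupp.erase_add_single]
  · rintro ⟨s, ⟨μ, hμ, rfl⟩, e, he, rfl⟩
    rw [Finset.mem_coe, Finset.mem_Iic] at hμ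
    refine ⟨μ + Finsupp.single d e, ?_, ?_⟩
    · rw [Finset.mem_coe, Finset.mem_Iic]
      exact add_le_add hμ (Finsupp.single_mono he)
    · rw [ev_add, ev_single]

/-- the base field `ℚ(j)`. -/
abbrev K0 : IntermediateField ℚ (LaurentSeries ℚ) := IntermediateField.adjoin ℚ {jq}

/-- `j(q^d)`. -/
abbrev jd (d : ℕ) : LaurentSeries ℚ := jS ℚ 1 d

/-- the monomials of the box `Iic β` span the `ℚ(j)`-algebra generated by the `j(q^d)`, `d ∈ T`. -/
def Good (β : ℕ →₀ ℕ) (T : Set ℕ) : Prop :=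
  Submodule.span K0 (ev ℚ '' ↑(Finset.Iic β))
    = Subalgebra.toSubmodule (Algebra.adjoin K0 (jd '' T))

theorem Good.zero : Good 0 ∅ := by
  unfold Good
  have h1 : (Finset.Iic (0 : ℕ →₀ ℕ)) = {0} := by
    ext μ
    rw [Finset.mem_Iic, Finset.mem_singleton]
    exact le_bot_iff
  rw [h1, Finset.coe_singleton, Set.image_singleton, ev_zero, Set.image_empty, Algebra.adjoin_empty,
    Algebra.toSubmodule_bot, Submodule.one_eq_span]

theorem Good.step {β : ℕ →₀ ℕ} {T : Set ℕ} (h : Good β T) {d n : ℕ} (hd : β d = 0)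
    (f : (Algebra.adjoin K0 (jd '' T))[X]) (hf : f.Monic) (hdeg : f.natDegree = n + 1)
    (hroot : Polynomial.aeval (jd d) f = 0) :
    Good (β + Finsupp.single d n) (insert d T) := by
  unfold Good at h ⊢
  rw [ev_image_Iic_add_single ℚ β d n hd,
    span_mul_pow_eq_adjoin (Algebra.adjoin K0 (jd '' T)) _ h (jd d) n f hf hdeg hroot]
  congr 1
  apply le_antisymm
  · apply Algebra.adjoin_le
    rintro x (hx | hx)
    · exact Algebra.adjoin_mono (Set.image_mono (Set.subset_insert d T)) hx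
    · rw [Set.mem_singleton_iff] at hx
      rw [hx]
      exact Algebra.subset_adjoin ⟨d, Set.mem_insert d T, rfl⟩
  · apply Algebra.adjoin_le
    rintro x ⟨k, hk, rfl⟩
    rcases hk with rfl | hk
    · exact Algebra.subset_adjoin (Or.inr rfl)
    · exact Algebra.subset_adjoin (Or.inl (Algebra.subset_adjoin ⟨k, hk, rfl⟩))

section OverQ

variable {K : Type*} [Field K] [Algebra ℚ K] {Φ : ℤ[X][X]} {p : ℕ}

theorem jd_one_mem (B : Subalgebra K0 (LaurentSeries ℚ)) : jd 1 ∈ B := by
  have h : jd 1 = algebraMap K0 (LaurentSeries ℚ)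
      ⟨jq, IntermediateField.mem_adjoin_simple_self ℚ jq⟩ := by
    show jS ℚ 1 1 = jq
    rw [jS_one_one]
    rfl
  rw [h]
  exact B.algebraMap_mem _

/-- `aeval` of `polyAt Φ x` for `x` in a subalgebra. -/
theorem aeval_polyAt_subalgebra (B : Subalgebra K0 (LaurentSeries ℚ)) (x : B)
    (g : LaurentSeries ℚ) :
    Polynomial.aeval g (polyAt Φ x) = (polyAt Φ (x : LaurentSeries ℚ)).eval g := by
  rw [aeval_def, ← eval_map, polyAt_map]
  rfl

theorem good_step_first {β : ℕ →₀ ℕ} {T : Set ℕ} (h : Good β T)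
    (hΦm : Φ.Monic) (hΦd : Φ.natDegree = p + 1)
    (hA : IsModEq Φ p K) (hp : p ≠ 0) {ζ : Kˣ} (hζ : IsPrimitiveRoot ζ p) (hd : β p = 0) :
    Good (β + Finsupp.single p p) (insert p T) := by
  set B := Algebra.adjoin K0 (jd '' T)
  refine h.step hd (polyAt Φ (⟨jd 1, jd_one_mem B⟩ : B)) (polyAt_monic hΦm _)
    (by rw [polyAt_natDegree hΦm, hΦd]) ?_
  rw [aeval_polyAt_subalgebra]
  have := rel_fwd hA hp hζ (n := 1) one_ne_zero
  rw [one_mul] at this
  exact this

theorem good_step_next {β : ℕ →₀ ℕ} {T : Set ℕ} (h : Good β T)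
    (hΦm : Φ.Monic) (hΦd : Φ.natDegree = p + 1)
    (hA : IsModEq Φ p K) (hp : 2 ≤ p) {ζ : Kˣ} (hζ : IsPrimitiveRoot ζ p) {m : ℕ} (hm : 1 ≤ m)
    (hd : β (p ^ (m + 1)) = 0)
    (h1 : jd (p ^ m) ∈ Algebra.adjoin K0 (jd '' T))
    (h0 : jd (p ^ (m - 1)) ∈ Algebra.adjoin K0 (jd '' T)) :
    Good (β + Finsupp.single (p ^ (m + 1)) (p - 1)) (insert (p ^ (m + 1)) T) := by
  set B := Algebra.adjoin K0 (jd '' T)
  have hp0 : p ≠ 0 := by omega
  set x1 : B := ⟨jd (p ^ m), h1⟩
  set x0 : B := ⟨jd (p ^ (m - 1)), h0⟩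
  set F : B[X] := polyAt Φ x1
  have hFm : F.Monic := polyAt_monic hΦm _
  have hFd : F.natDegree = p + 1 := by rw [polyAt_natDegree hΦm, hΦd]
  have hpm : p ^ (m - 1) * p = p ^ m := by
    rw [← pow_succ, Nat.sub_add_cancel hm]
  -- `x0` is a root of `F`
  have hroot0 : F.IsRoot x0 := by
    have : Rel Φ x0 x1 := by
      apply Rel.of_map_injective (algebraMap B (LaurentSeries ℚ)) Subtype.val_injective
      have := rel_bwd hA hp0 hζ (n := p ^ (m - 1)) (pow_ne_zero _ hp0)
      rw [hpm] at this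
      exact this
    exact this
  have hdiv : (X - C x0) * (F /ₘ (X - C x0)) = F := mul_divByMonic_eq_iff_isRoot.mpr hroot0
  set G : B[X] := F /ₘ (X - C x0)
  have hGm : G.Monic := by
    have hmon : ((X - C x0) * G).Monic := by rw [hdiv]; exact hFm
    exact (monic_X_sub_C x0).of_mul_monic_left hmon
  have hGd : G.natDegree = (p - 1) + 1 := by
    have := natDegree_divByMonic F (monic_X_sub_C x0)
    rw [natDegree_X_sub_C, hFd] at this
    show (F /ₘ (X - C x0)).natDegree = _
    omega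
  refine h.step hd G hGm hGd ?_
  -- `j(q^(p^(m+1)))` is a root of `F`, hence of `G`
  have hF0 : Polynomial.aeval (jd (p ^ (m + 1))) F = 0 := by
    rw [aeval_polyAt_subalgebra]
    have := rel_fwd hA hp0 hζ (n := p ^ m) (pow_ne_zero _ hp0)
    rw [← pow_succ] at this
    exact this
  rw [← hdiv, map_mul] at hF0
  have hlin : Polynomial.aeval (jd (p ^ (m + 1))) (X - C x0)
      = jd (p ^ (m + 1)) - jd (p ^ (m - 1)) := by
    rw [Polynomial.aeval_def, Polynomial.eval₂_sub, Polynomial.eval₂_X, Polynomial.eval₂_C]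
    rfl
  rw [hlin] at hF0
  rcases mul_eq_zero.mp hF0 with h' | h'
  · exfalso
    have hne : jd (p ^ (m + 1)) ≠ jd (p ^ (m - 1)) := by
      apply jS_ne_of_ne_exp (pow_ne_zero _ hp0) (pow_ne_zero _ hp0)
      intro heq
      have := Nat.pow_right_injective hp heq
      omega
    exact hne (sub_eq_zero.mp h')
  · exact h'

theorem stepBound_apply_ne_zero {p a d : ℕ} (h : stepBound p a d ≠ 0) :
    ∃ b, 1 ≤ b ∧ b ≤ a ∧ d = p ^ b := by
  unfold stepBound at h
  rw [Finsupp.finsetSum_apply] at h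
  obtain ⟨b, hb, hb'⟩ := Finset.exists_ne_zero_of_sum_ne_zero h
  rw [Finset.mem_Icc] at hb
  refine ⟨b, hb.1, hb.2, ?_⟩
  by_contra hne
  apply hb'
  rw [Finsupp.single_apply, if_neg (fun h => hne h.symm)]

theorem good_prime {β : ℕ →₀ ℕ} {T : Set ℕ} (h : Good β T)
    (hΦm : Φ.Monic) (hΦd : Φ.natDegree = p + 1)
    (hA : IsModEq Φ p K) (hp : 2 ≤ p) {ζ : Kˣ} (hζ : IsPrimitiveRoot ζ p)
    (hβ : ∀ b, 1 ≤ b → β (p ^ b) = 0) (a : ℕ) :
    Good (β + stepBound p a) (T ∪ {d | ∃ b, 1 ≤ b ∧ b ≤ a ∧ d = p ^ b}) := by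
  have hp0 : p ≠ 0 := by omega
  induction a with
  | zero =>
    have h1 : stepBound p 0 = 0 := by simp [stepBound]
    have h2 : {d | ∃ b, 1 ≤ b ∧ b ≤ 0 ∧ d = p ^ b} = (∅ : Set ℕ) := by
      ext d
      simp only [Set.mem_ofPred_eq, Set.mem_empty_iff_false, iff_false]
      rintro ⟨b, hb1, hb2, -⟩
      omega
    rw [h1, add_zero, h2, Set.union_empty]
    exact h
  | succ a ih =>
    have hset : T ∪ {d | ∃ b, 1 ≤ b ∧ b ≤ a + 1 ∧ d = p ^ b}
        = insert (p ^ (a + 1)) (T ∪ {d | ∃ b, 1 ≤ b ∧ b ≤ a ∧ d = p ^ b}) := by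
      ext d
      simp only [Set.mem_union, Set.mem_ofPred_eq, Set.mem_insert_iff]
      constructor
      · rintro (hd | ⟨b, hb1, hb2, rfl⟩)
        · exact Or.inr (Or.inl hd)
        · rcases Nat.lt_or_ge b (a + 1) with hlt | hge
          · exact Or.inr (Or.inr ⟨b, hb1, by omega, rfl⟩)
          · have : b = a + 1 := by omega
            subst this
            exact Or.inl rfl
      · rintro (rfl | hd | ⟨b, hb1, hb2, rfl⟩)
        · exact Or.inr ⟨a + 1, by omega, le_refl _, rfl⟩
        · exact Or.inl hd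
        · exact Or.inr ⟨b, hb1, by omega, rfl⟩
    have hzero : (β + stepBound p a) (p ^ (a + 1)) = 0 := by
      rw [Finsupp.add_apply, hβ (a + 1) (by omega), zero_add]
      by_contra hne
      obtain ⟨b, hb1, hb2, hb3⟩ := stepBound_apply_ne_zero hne
      have := Nat.pow_right_injective hp hb3
      omega
    rw [stepBound_succ, ← add_assoc, hset]
    rcases Nat.eq_zero_or_pos a with ha | ha
    · subst ha
      simp only [zero_add, pow_one, if_true] at hzero ⊢
      exact good_step_first ih hΦm hΦd hA hp0 hζ hzero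
    · have hne : a + 1 ≠ 1 := by omega
      rw [if_neg hne]
      refine good_step_next ih hΦm hΦd hA hp hζ ha hzero ?_ ?_
      · exact Algebra.subset_adjoin ⟨p ^ a, Or.inr ⟨a, ha, le_refl _, rfl⟩, rfl⟩
      · rcases Nat.eq_or_lt_of_le ha with h1 | h1
        · have : a - 1 = 0 := by omega
          rw [this, pow_zero]
          exact jd_one_mem _
        · exact Algebra.subset_adjoin ⟨p ^ (a - 1), Or.inr ⟨a - 1, by omega, by omega, rfl⟩, rfl⟩

end OverQ

section Outer

variable {K : Type} [Field K] [CharZero K]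

/-- the generators `p^b`, `p ∈ P`, `1 ≤ b ≤ v_p(N)`. -/
def keys (P : Finset ℕ) (N : ℕ) : Set ℕ :=
  {d | ∃ p ∈ P, ∃ b, 1 ≤ b ∧ b ≤ N.factorization p ∧ d = p ^ b}

theorem good_partial {N : ℕ} (Φ : ℕ → ℤ[X][X])
    (hΦ : ∀ p, p.Prime → p ∣ N →
      (Φ p).Monic ∧ (Φ p).natDegree = p + 1 ∧ IsModEq (Φ p) p K)
    (hroots : ∀ p, p.Prime → p ∣ N → ∃ ζ : Kˣ, IsPrimitiveRoot ζ p)
    (P : Finset ℕ) (hP : P ⊆ N.primeFactors) :
    Good (∑ p ∈ P, stepBound p (N.factorization p)) (keys P N) := by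
  classical
  induction P using Finset.induction_on with
  | empty =>
    have : keys ∅ N = ∅ := by
      ext d
      simp [keys]
    rw [Finset.sum_empty, this]
    exact Good.zero
  | insert p P hpP ih =>
    have hpN : p ∈ N.primeFactors := hP (Finset.mem_insert_self p P)
    have hp : p.Prime := Nat.prime_of_mem_primeFactors hpN
    have hpd : p ∣ N := Nat.dvd_of_mem_primeFactors hpN
    obtain ⟨hΦm, hΦd, hA⟩ := hΦ p hp hpd
    obtain ⟨ζ, hζ⟩ := hroots p hp hpd
    have ih' := ih (fun x hx => hP (Finset.mem_insert_of_mem hx))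
    have hβ : ∀ b, 1 ≤ b → (∑ p' ∈ P, stepBound p' (N.factorization p')) (p ^ b) = 0 := by
      intro b hb
      rw [Finsupp.finsetSum_apply]
      refine Finset.sum_eq_zero fun p' hp' => ?_
      have hp'N : p' ∈ N.primeFactors := hP (Finset.mem_insert_of_mem hp')
      exact stepBound_apply_pow_of_ne hp (Nat.prime_of_mem_primeFactors hp'N)
        (fun h => hpP (h ▸ hp')) _ hb
    have := good_prime ih' hΦm hΦd hA hp.two_le hζ hβ (N.factorization p)
    rw [Finset.sum_insert hpP, add_comm]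
    convert this using 1
    ext d
    simp only [keys, Set.mem_ofPred_eq, Set.mem_union, Finset.mem_insert]
    constructor
    · rintro ⟨p', (rfl | hp'), b, hb1, hb2, rfl⟩
      · exact Or.inr ⟨b, hb1, hb2, rfl⟩
      · exact Or.inl ⟨p', hp', b, hb1, hb2, rfl⟩
    · rintro (⟨p', hp', b, hb1, hb2, rfl⟩ | ⟨b, hb1, hb2, rfl⟩)
      · exact ⟨p', Or.inr hp', b, hb1, hb2, rfl⟩
      · exact ⟨p, Or.inl rfl, b, hb1, hb2, rfl⟩

/-- the `ℚ(j)`-algebra generated by the prime-power level `j`-functions. -/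
def towerAlg (N : ℕ) : Subalgebra K0 (LaurentSeries ℚ) :=
  Algebra.adjoin K0 (jd '' keys N.primeFactors N)

theorem span_box_eq {N : ℕ} (Φ : ℕ → ℤ[X][X])
    (hΦ : ∀ p, p.Prime → p ∣ N →
      (Φ p).Monic ∧ (Φ p).natDegree = p + 1 ∧ IsModEq (Φ p) p K)
    (hroots : ∀ p, p.Prime → p ∣ N → ∃ ζ : Kˣ, IsPrimitiveRoot ζ p) :
    Submodule.span K0 (ev ℚ '' ↑(box N)) = Subalgebra.toSubmodule (towerAlg N) :=
  good_partial Φ hΦ hroots N.primeFactors (Finset.Subset.refl _)

theorem towerAlg_isField {N : ℕ} (Φ : ℕ → ℤ[X][X])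
    (hΦ : ∀ p, p.Prime → p ∣ N →
      (Φ p).Monic ∧ (Φ p).natDegree = p + 1 ∧ IsModEq (Φ p) p K)
    (hroots : ∀ p, p.Prime → p ∣ N → ∃ ζ : Kˣ, IsPrimitiveRoot ζ p) :
    IsField (towerAlg N) := by
  have hfg : (Subalgebra.toSubmodule (towerAlg N)).FG := by
    rw [← span_box_eq Φ hΦ hroots]
    exact Submodule.fg_span ((Finset.finite_toSet _).image _)
  have hfin : Module.Finite K0 (towerAlg N) := Module.Finite.iff_fg.mpr hfg
  have : Algebra.IsIntegral K0 (towerAlg N) := Algebra.IsIntegral.of_finite K0 (towerAlg N)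
  exact isField_of_isIntegral_of_isField' (Field.toIsField K0)

/-- the tower algebra as an intermediate field over `ℚ`. -/
def towerField {N : ℕ} (h : IsField (towerAlg N)) :
    IntermediateField ℚ (LaurentSeries ℚ) where
  carrier := (towerAlg N : Set (LaurentSeries ℚ))
  mul_mem' := fun ha hb => (towerAlg N).mul_mem ha hb
  one_mem' := (towerAlg N).one_mem
  add_mem' := fun ha hb => (towerAlg N).add_mem ha hb
  zero_mem' := (towerAlg N).zero_mem
  algebraMap_mem' := fun c => by
    have h1 : algebraMap ℚ (LaurentSeries ℚ) c = ((c : ℚ) : LaurentSeries ℚ) :=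
      eq_ratCast (algebraMap ℚ (LaurentSeries ℚ)) c
    have h2 : algebraMap K0 (LaurentSeries ℚ) ((c : ℚ) : K0) = ((c : ℚ) : LaurentSeries ℚ) :=
      map_ratCast (algebraMap K0 (LaurentSeries ℚ)) c
    show algebraMap ℚ (LaurentSeries ℚ) c ∈ towerAlg N
    rw [h1, ← h2]
    exact (towerAlg N).algebraMap_mem _
  inv_mem' := by
    intro x hx
    have hx' : x ∈ towerAlg N := hx
    show x⁻¹ ∈ towerAlg N
    by_cases hx0 : x = 0
    · rw [hx0, inv_zero]; exact zero_mem _
    · obtain ⟨y, hy⟩ := h.mul_inv_cancel (a := (⟨x, hx'⟩ : towerAlg N))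
        (fun h0 => hx0 (congrArg Subtype.val h0))
      have hy' : x * (y : LaurentSeries ℚ) = 1 := congrArg Subtype.val hy
      have : x⁻¹ = (y : LaurentSeries ℚ) := inv_eq_of_mul_eq_one_right hy'
      rw [this]
      exact y.2

theorem mem_towerField {N : ℕ} (h : IsField (towerAlg N)) {x : LaurentSeries ℚ} :
    x ∈ towerField h ↔ x ∈ towerAlg N := Iff.rfl

/-- **(Z3)**: the level-`N` modular function field is contained in the `ℚ(j)`-span of the box
monomials. -/
theorem full_le_span {N : ℕ} (hN : N ≠ 0) (Φ : ℕ → ℤ[X][X])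
    (hΦ : ∀ p, p.Prime → p ∣ N →
      (Φ p).Monic ∧ (Φ p).natDegree = p + 1 ∧ IsModEq (Φ p) p K)
    (hroots : ∀ p, p.Prime → p ∣ N → ∃ ζ : Kˣ, IsPrimitiveRoot ζ p) :
    ∀ y ∈ modularFunctionFieldFull N, y ∈ Submodule.span K0 (ev ℚ '' ↑(box N)) := by
  have hfield := towerAlg_isField Φ hΦ hroots
  have hV : ∀ q b : ℕ, q.Prime → q ^ b ∣ N → jS ℚ 1 (q ^ b) ∈ towerField hfield := by
    intro q b hq hqb
    rw [mem_towerField]
    rcases Nat.eq_zero_or_pos b with hb | hb
    · subst hb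
      rw [pow_zero]
      exact jd_one_mem _
    · refine Algebra.subset_adjoin ⟨q ^ b, ⟨q, ?_, b, hb, ?_, rfl⟩, rfl⟩
      · exact Nat.mem_primeFactors.mpr ⟨hq, (dvd_pow_self q hb.ne').trans hqb, hN⟩
      · exact (hq.pow_dvd_iff_le_factorization hN).mp hqb
  have hall := jS_mem_of_primePow_mem hN Φ (fun p hp hpN => (hΦ p hp hpN).2.2) hroots
    (towerField hfield) hV
  have hle : modularFunctionFieldFull N ≤ towerField hfield := by
    rw [modularFunctionFieldFull, IntermediateField.adjoin_le_iff]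
    rintro x ⟨d, hd, hdN, rfl⟩
    have := hd
    have h1 : qExpand ℚ d jq = jS ℚ 1 d := by
      rw [jS_eq_qExpand]
      rfl
    rw [SetLike.mem_coe, h1]
    exact hall d hdN
  intro y hy
  have hy' : y ∈ towerAlg N := (mem_towerField hfield).mp (hle hy)
  rw [span_box_eq Φ hΦ hroots]
  exact hy'

end Outer

end Fermat.Agent.S28.Tower
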