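import Fermat.Agent.S28.Tower.Induction
import Fermat.Agent.S28.Laurent
import Fermat.Agent.S28.Gauss

/-!
# P-S28 WP-C (tower): the independence statement in polynomial form, over `ZMod ℓ`
-/

set_option autoImplicit false
noncomputable section

namespace Fermat.Agent.S28.Tower

open ModularCurve Polynomial

section AlgClosed

variable {k : Type} [Field k] [IsAlgClosed k]

/-- polynomial form of the independence over an algebraically closed field, in the variable `q`. -/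
theorem hind_algClosed {N : ℕ} (Φ : ℕ → ℤ[X][X]) (hNk : (N : k) ≠ 0)
    (hΦ : ∀ p, p.Prime → p ∣ N → (Φ p).Monic ∧ (Φ p).natDegree = p + 1 ∧ IsModEq (Φ p) p k ∧
      Irreducible (polyAt (Φ p) (gen₀ k N)))
    (c : box N → k[X])
    (h : ∑ μ : box N, aeval (jqModC k) (c μ) * ev k (μ : ℕ →₀ ℕ) = 0) : ∀ μ, c μ = 0 := by
  have hN0 : N ≠ 0 := by rintro rfl; simp at hNk
  have : NeZero N := ⟨hN0⟩
  have hli := linearIndependent_expand_ev Φ hNk hΦ
  rw [Fintype.linearIndependent_iff] at hli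
  have h1 := congrArg (qExpandAlgHomC k N) h
  rw [map_sum, map_zero] at h1
  have h2 : ∑ μ : box N, (aeval (gen₀ k N) (c μ) : E₀ k N) • expand k N (ev k (μ : ℕ →₀ ℕ)) = 0 := by
    rw [← h1]
    refine Finset.sum_congr rfl fun μ _ => ?_
    rw [map_mul, ← Polynomial.aeval_algHom_apply, qExpandAlgHomC_apply, qExpandAlgHomC_apply,
      ← jS_eq_qExpand, ← expand_eq_qExpand, Algebra.smul_def, ← Polynomial.aeval_algebraMap_apply,
      algebraMap_gen₀]
  intro μ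
  have h3 := hli _ h2 μ
  have h4 : aeval (jS k 1 N) (c μ) = 0 := by
    have := congrArg (algebraMap (E₀ k N) (LaurentSeries k)) h3
    rwa [← Polynomial.aeval_algebraMap_apply, algebraMap_gen₀, map_zero] at this
  have htr : Transcendental k (jS k 1 N) := by
    rw [jS_eq_qExpand]
    exact Fermat.Agent.S28.transcendental_jqNModC N
  by_contra hne
  exact htr ⟨c μ, hne, h4⟩

end AlgClosed

section Descent

variable (ℓ : ℕ) [Fact ℓ.Prime]

/-- descent to `ZMod ℓ`. -/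
theorem hind_zmod {N : ℕ} (hN : ¬ ℓ ∣ N) (Φ : ℕ → ℤ[X][X])
    (hΦ : ∀ p, p.Prime → p ∣ N → (Φ p).Monic ∧ (Φ p).natDegree = p + 1 ∧
      IsModEq (Φ p) p (AlgebraicClosure (ZMod ℓ)) ∧
      Irreducible (polyAt (Φ p) (gen₀ (AlgebraicClosure (ZMod ℓ)) N)))
    (c : box N → (ZMod ℓ)[X])
    (h : ∑ μ : box N, aeval (jqModC (ZMod ℓ)) (c μ) * ev (ZMod ℓ) (μ : ℕ →₀ ℕ) = 0) :
    ∀ μ, c μ = 0 := by
  set k := AlgebraicClosure (ZMod ℓ) with hk
  have hNk : (N : k) ≠ 0 := by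
    rw [Ne, CharP.cast_eq_zero_iff k ℓ]; exact hN
  have h1 := congrArg (coeffMap (algebraMap (ZMod ℓ) k)) h
  rw [map_sum, map_zero] at h1
  have h2 : ∑ μ : box N, aeval (jqModC k) ((c μ).map (algebraMap (ZMod ℓ) k)) *
      ev k (μ : ℕ →₀ ℕ) = 0 := by
    rw [← h1]
    refine Finset.sum_congr rfl fun μ _ => ?_
    rw [map_mul, coeffMap_ev, aeval_def, aeval_def, Polynomial.hom_eval₂, coeffMap_jqModC,
      eval₂_map]
    congr 2
    ext r
    simp only [RingHom.comp_apply]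
    rw [algebraMap_laurentSeries_eq_single, algebraMap_laurentSeries_eq_single, coeffMap_single]
  intro μ
  have h3 := hind_algClosed Φ hNk hΦ _ h2 μ
  exact (Polynomial.map_eq_zero_iff (algebraMap (ZMod ℓ) k).injective).mp h3

/-- **`hind` of `FiniteChartData`** with `ι := box N`, `ω0 μ := ev ℤ_(ℓ) μ`. -/
theorem hind_final {N : ℕ} (hN : ¬ ℓ ∣ N) (Φ : ℕ → ℤ[X][X])
    (hΦ : ∀ p, p.Prime → p ∣ N → (Φ p).Monic ∧ (Φ p).natDegree = p + 1 ∧
      IsModEq (Φ p) p (AlgebraicClosure (ZMod ℓ)) ∧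
      Irreducible (polyAt (Φ p) (gen₀ (AlgebraicClosure (ZMod ℓ)) N)))
    (c : box N → (ZMod ℓ)[X])
    (h : ∑ μ : box N, aeval (redLS ℓ (jqModC ↥(GaloisRep.ratLocalizedAt ℓ))) (c μ) *
      redLS ℓ (ev ↥(GaloisRep.ratLocalizedAt ℓ) (μ : ℕ →₀ ℕ)) = 0) :
    ∀ μ, c μ = 0 := by
  refine hind_zmod ℓ hN Φ hΦ c ?_
  rw [← h]
  refine Finset.sum_congr rfl fun μ _ => ?_
  rw [redLS, coeffMap_ev, coeffMap_jqModC]

instance nonempty_box (N : ℕ) : Nonempty (box N) := ⟨⟨0, mem_box.mpr zero_le⟩⟩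

end Descent

end Fermat.Agent.S28.Tower
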