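import Fermat.Agent.S28.Tower.Defs
import Fermat.Prelude.Def_ModularCurve_IgusaScheme

/-!
# P-S28 WP-C (tower): from spanning over `ℚ(j)` to the `hspan` clause of `FiniteChartData`
-/

set_option autoImplicit false
noncomputable section

namespace Fermat.Agent.S28.Tower

open ModularCurve Polynomial

/-- clearing the denominators of a rational polynomial. -/
theorem exists_int_poly (A : ℚ[X]) :
    ∃ (a : ℤ) (A' : ℤ[X]), a ≠ 0 ∧ A'.map (Int.castRingHom ℚ) = C (a : ℚ) * A := by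
  obtain ⟨b, hbM, hb⟩ := IsLocalization.integerNormalization_spec (nonZeroDivisors ℤ) A
  refine ⟨b, IsLocalization.integerNormalization (nonZeroDivisors ℤ) A,
    nonZeroDivisors.ne_zero hbM, ?_⟩
  rw [show (Int.castRingHom ℚ) = algebraMap ℤ ℚ from rfl, hb, zsmul_eq_mul]
  simp

theorem aeval_int_eq (x : LaurentSeries ℚ) (A : ℚ[X]) (A' : ℤ[X]) (a : ℤ)
    (h : A'.map (Int.castRingHom ℚ) = C (a : ℚ) * A) :
    aeval x A' = (a : LaurentSeries ℚ) * aeval x A := by
  have h1 : aeval x A' = aeval x (A'.map (Int.castRingHom ℚ)) := by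
    rw [aeval_def, aeval_def, eval₂_map]
    congr 1
    exact RingHom.ext_int _ _
  rw [h1, h, map_mul, aeval_C]
  congr 1
  simp

/-- Step 1: an element of the `ℚ(j)`-span of the box monomials, with cleared denominators. -/
theorem exists_poly_of_mem_span (N : ℕ) {y : LaurentSeries ℚ}
    (hy : y ∈ Submodule.span (IntermediateField.adjoin ℚ {jq}) (ev ℚ '' ↑(box N))) :
    ∃ Q : ℤ[X], Q ≠ 0 ∧ ∃ P : box N → ℤ[X],
      aeval jq Q * y = ∑ μ : box N, aeval jq (P μ) * ev ℚ (μ : ℕ →₀ ℕ) := by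
  classical
  induction hy using Submodule.span_induction with
  | mem x hx =>
    obtain ⟨μ₀, hμ₀, rfl⟩ := hx
    refine ⟨1, one_ne_zero, fun μ => if μ = ⟨μ₀, hμ₀⟩ then 1 else 0, ?_⟩
    rw [map_one, one_mul, Finset.sum_eq_single (⟨μ₀, hμ₀⟩ : box N)]
    · simp
    · intro μ _ hμ
      simp [hμ]
    · intro h; exact absurd (Finset.mem_univ _) h
  | zero =>
    exact ⟨1, one_ne_zero, fun _ => 0, by simp⟩
  | add y₁ y₂ _ _ h₁ h₂ =>
    obtain ⟨Q₁, hQ₁, P₁, e₁⟩ := h₁
    obtain ⟨Q₂, hQ₂, P₂, e₂⟩ := h₂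
    refine ⟨Q₁ * Q₂, mul_ne_zero hQ₁ hQ₂, fun μ => Q₂ * P₁ μ + Q₁ * P₂ μ, ?_⟩
    have : aeval jq (Q₁ * Q₂) * (y₁ + y₂) =
        aeval jq Q₂ * (aeval jq Q₁ * y₁) + aeval jq Q₁ * (aeval jq Q₂ * y₂) := by
      rw [map_mul]; ring
    rw [this, e₁, e₂, Finset.mul_sum, Finset.mul_sum, ← Finset.sum_add_distrib]
    refine Finset.sum_congr rfl fun μ _ => ?_
    rw [map_add, map_mul, map_mul]; ring
  | smul a x _ h =>
    obtain ⟨Q, hQ, P, e⟩ := h
    obtain ⟨r, s, hrs⟩ := (IntermediateField.mem_adjoin_simple_iff ℚ (a : LaurentSeries ℚ)).mp a.2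
    have hsmul : a • x = (a : LaurentSeries ℚ) * x := rfl
    by_cases hS : aeval jq s = 0
    · refine ⟨1, one_ne_zero, fun _ => 0, ?_⟩
      rw [hsmul, hrs, hS, div_zero, zero_mul, mul_zero]
      simp
    · obtain ⟨α, r', hα, hr'⟩ := exists_int_poly r
      obtain ⟨β, s', hβ, hs'⟩ := exists_int_poly s
      have hs0 : s ≠ 0 := by rintro rfl; simp at hS
      have hs'0 : s' ≠ 0 := by
        rintro rfl
        rw [Polynomial.map_zero] at hs'
        have := mul_eq_zero.mp hs'.symm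
        rcases this with h | h
        · rw [C_eq_zero] at h; exact hβ (by exact_mod_cast h)
        · exact hs0 h
      refine ⟨C α * s' * Q, mul_ne_zero (mul_ne_zero (by rwa [Ne, C_eq_zero]) hs'0) hQ,
        fun μ => C β * r' * P μ, ?_⟩
      have er := aeval_int_eq jq r r' α hr'
      have es := aeval_int_eq jq s s' β hs'
      have hsum : ∑ μ : box N, aeval jq (C β * r' * P μ) * ev ℚ (μ : ℕ →₀ ℕ) =
          (β : LaurentSeries ℚ) * aeval jq r' * (aeval jq Q * x) := by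
        rw [e, Finset.mul_sum]
        refine Finset.sum_congr rfl fun μ _ => ?_
        rw [map_mul, map_mul, aeval_C]
        simp only [eq_intCast, mul_assoc]
      rw [hsum, hsmul, hrs, map_mul, map_mul, aeval_C, er, es]
      simp only [eq_intCast]
      field_simp

section ToF

open scoped ModularCurve.IgusaScheme

variable (N : ℕ) [NeZero N] (ℓ : ℕ) [Fact ℓ.Prime]

omit [Fact ℓ.Prime] in
/-- evaluating an integer polynomial at `jFull N` inside `F`, viewed in `ℚ((q))`. -/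
theorem coe_aeval_map_jFull (P : ℤ[X]) :
    ((aeval (IgusaScheme.jFull N) (P.map (Int.castRingHom ↥(GaloisRep.ratLocalizedAt ℓ))) :
      ↥(modularFunctionFieldFull N)) : LaurentSeries ℚ) = aeval jq P := by
  rw [aeval_def, eval₂_map]
  have h := Polynomial.hom_eval₂ P ((algebraMap ↥(GaloisRep.ratLocalizedAt ℓ)
    ↥(modularFunctionFieldFull N)).comp (Int.castRingHom ↥(GaloisRep.ratLocalizedAt ℓ)))
    (algebraMap ↥(modularFunctionFieldFull N) (LaurentSeries ℚ)) (IgusaScheme.jFull N)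
  have h2 : (algebraMap ↥(modularFunctionFieldFull N) (LaurentSeries ℚ)).comp
      ((algebraMap ↥(GaloisRep.ratLocalizedAt ℓ) ↥(modularFunctionFieldFull N)).comp
        (Int.castRingHom ↥(GaloisRep.ratLocalizedAt ℓ))) = algebraMap ℤ (LaurentSeries ℚ) :=
    RingHom.ext_int _ _
  rw [h2] at h
  exact h

omit [Fact ℓ.Prime] in
/-- **Step 2: the `hspan` clause of `FiniteChartData`.** -/
theorem hspan_of_full_le_span
    (hmem : ∀ μ : box N, ev ℚ (μ : ℕ →₀ ℕ) ∈ modularFunctionFieldFull N)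
    (hspan : ∀ y ∈ modularFunctionFieldFull N,
      y ∈ Submodule.span (IntermediateField.adjoin ℚ {jq}) (ev ℚ '' ↑(box N)))
    (y : ↥(modularFunctionFieldFull N)) :
    ∃ Q : (↥(GaloisRep.ratLocalizedAt ℓ))[X], Q ≠ 0 ∧
      ∃ P : box N → (↥(GaloisRep.ratLocalizedAt ℓ))[X],
        aeval (IgusaScheme.jFull N) Q * y =
          ∑ μ : box N, aeval (IgusaScheme.jFull N) (P μ) *
            (⟨ev ℚ (μ : ℕ →₀ ℕ), hmem μ⟩ : ↥(modularFunctionFieldFull N)) := by
  obtain ⟨Q, hQ, P, e⟩ := exists_poly_of_mem_span N (hspan y y.2)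
  have hinj : Function.Injective (Int.castRingHom ↥(GaloisRep.ratLocalizedAt ℓ)) := by
    intro a b hab
    have := congrArg (fun x : ↥(GaloisRep.ratLocalizedAt ℓ) => (x : ℚ)) hab
    simpa using this
  refine ⟨Q.map (Int.castRingHom _), (Polynomial.map_ne_zero_iff hinj).mpr hQ,
    fun μ => (P μ).map (Int.castRingHom _), ?_⟩
  apply Subtype.ext
  push_cast
  rw [coe_aeval_map_jFull, e]
  refine Finset.sum_congr rfl fun μ _ => ?_
  rw [coe_aeval_map_jFull]

end ToF

end Fermat.Agent.S28.Tower
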