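import Mathlib

/-!
# P-S28 WP-C (tower): abstract field-theoretic lemmas

* `irreducible_of_orbit` : a polynomial over `L` whose roots in `E ⊇ L` form one orbit of distinct
  elements under an endomorphism of `E` fixing `L` is irreducible over `L`.
* `not_isRoot_of_forall_algHom` : an irreducible `g ∈ F[X]` has no root in an algebraic extension
  `E` of `F` if some root of `g` in an algebraically closed `K` is missed by the images of all
  `F`-embeddings `E → K`.
* `TowerState` : a field `E` over a base `E₀` with two embeddings `fwd rev : E → Ω` and a finite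
  `E₀`-basis; `TowerState.extend` adjoins a root of an irreducible monic polynomial.
-/

set_option autoImplicit false
noncomputable section

namespace Fermat.Agent.S28.Tower

open Polynomial

section Orbit

variable {L E : Type*} [Field L] [Field E] [Algebra L E]

/-- roots (in `E`) of `Q ∈ L[X]` are mapped to roots by iterates of an endomorphism fixing `L`. -/
theorem isRoot_iterate_of_fixes (σ : E →+* E)
    (hσ : ∀ x : L, σ (algebraMap L E x) = algebraMap L E x) (Q : L[X]) {b : E}
    (hb : (Q.map (algebraMap L E)).IsRoot b) (i : ℕ) :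
    (Q.map (algebraMap L E)).IsRoot ((⇑σ)^[i] b) := by
  induction i with
  | zero => simpa using hb
  | succ i ih =>
    rw [Function.iterate_succ_apply']
    rw [IsRoot.def, eval_map] at ih ⊢
    have h := Polynomial.hom_eval₂ Q (algebraMap L E) σ ((⇑σ)^[i] b)
    rw [ih, map_zero] at h
    have hcomp : σ.comp (algebraMap L E) = algebraMap L E := RingHom.ext hσ
    rw [hcomp] at h
    exact h.symm

/-- **Pure orbit criterion.** -/
theorem irreducible_of_orbit (σ : E →+* E)
    (hσ : ∀ x : L, σ (algebraMap L E x) = algebraMap L E x) {n : ℕ} (hn : 0 < n) (b : E)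
    (hinj : ∀ i < n, ∀ j < n, (⇑σ)^[i] b = (⇑σ)^[j] b → i = j) (P : L[X])
    (hP : P.map (algebraMap L E) = ∏ i ∈ Finset.range n, (X - C ((⇑σ)^[i] b))) :
    Irreducible P := by
  classical
  set Pi0 : E[X] := ∏ i ∈ Finset.range n, (X - C ((⇑σ)^[i] b)) with hPi
  have hPimonic : Pi0.Monic := monic_prod_of_monic _ _ fun i _ => monic_X_sub_C _
  have hPideg : Pi0.natDegree = n := by
    rw [hPi, natDegree_prod_of_monic _ _ fun i _ => monic_X_sub_C _]
    simp
  have hPmapmonic : (P.map (algebraMap L E)).Monic := by rw [hP]; exact hPimonic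
  have hPmonic : P.Monic := monic_of_injective (algebraMap L E).injective hPmapmonic
  have hPdeg : P.natDegree = n := by
    rw [← natDegree_map (algebraMap L E), hP, hPideg]
  have hbroot : (P.map (algebraMap L E)).IsRoot b := by
    rw [hP, IsRoot.def, hPi, eval_prod, Finset.prod_eq_zero (Finset.mem_range.mpr hn)]
    simp
  have hbint : IsIntegral L b := ⟨P, hPmonic, by rwa [IsRoot.def, eval_map] at hbroot⟩
  set Q := minpoly L b with hQ
  have hQmonic : Q.Monic := minpoly.monic hbint
  have hQP : Q ∣ P := minpoly.dvd L b (by rwa [IsRoot.def, eval_map, ← aeval_def] at hbroot)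
  have hQroot : (Q.map (algebraMap L E)).IsRoot b := by
    rw [IsRoot.def, eval_map, ← aeval_def]; exact minpoly.aeval L b
  have hPiQ : Pi0 ∣ Q.map (algebraMap L E) := by
    rw [hPi]
    refine Finset.prod_dvd_of_coprime ?_ ?_
    · intro i hi j hj hij
      have hi' := Finset.mem_range.mp hi
      have hj' := Finset.mem_range.mp hj
      refine Polynomial.isCoprime_X_sub_C_of_isUnit_sub ?_
      rw [isUnit_iff_ne_zero, sub_ne_zero]
      exact fun h => hij (hinj i hi' j hj' h)
    · intro i _
      rw [dvd_iff_isRoot]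
      exact isRoot_iterate_of_fixes σ hσ Q hQroot i
  have hQmapmonic : (Q.map (algebraMap L E)).Monic := hQmonic.map _
  have hQdeg_ge : n ≤ Q.natDegree := by
    have := natDegree_le_of_dvd hPiQ hQmapmonic.ne_zero
    rwa [hPideg, natDegree_map] at this
  have hQeq : P = Q := by
    refine eq_of_monic_of_dvd_of_natDegree_le hQmonic hPmonic hQP ?_
    rw [hPdeg]; exact hQdeg_ge
  rw [hQeq]
  exact minpoly.irreducible hbint

end Orbit

section NoRoot

variable {F E K : Type*} [Field F] [Field E] [Field K] [Algebra F E] [Algebra F K]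

/-- If `g ∈ F[X]` is monic irreducible, `x' ∈ K` (algebraically closed) is a root of `g` which is
not in the image of any `F`-embedding `E → K`, and `E / F` is algebraic, then `g` has no root
in `E`. -/
theorem not_isRoot_of_forall_algHom [Algebra.IsAlgebraic F E] [IsAlgClosed K] (g : F[X])
    (hg : Irreducible g) (hmonic : g.Monic) (x' : K) (hx' : aeval x' g = 0)
    (hout : ∀ ψ : E →ₐ[F] K, ∀ e : E, ψ e ≠ x') (y : E) :
    ¬ (g.map (algebraMap F E)).IsRoot y := by
  intro hy
  have hy' : aeval y g = 0 := by rwa [IsRoot.def, eval_map, ← aeval_def] at hy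
  have hmin : g = minpoly F y := minpoly.eq_of_irreducible_of_monic hg hy' hmonic
  have hK : ∀ s : E, IsIntegral F s ∧ ((minpoly F s).map (algebraMap F K)).Splits :=
    fun s => ⟨Algebra.IsIntegral.isIntegral s, IsAlgClosed.splits _⟩
  obtain ⟨ψ, hψ⟩ := IntermediateField.exists_algHom_of_splits_of_aeval hK
    (x := y) (y := x') (by rw [← hmin]; exact hx')
  exact hout ψ y hψ

end NoRoot

section State

variable (E₀ Ω : Type) [Field E₀] [Field Ω] [Algebra E₀ Ω]

/-- A finite field extension `E` of `E₀` with two `E₀`-embeddings into `Ω` and an `E₀`-basis. -/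
structure TowerState : Type 1 where
  /-- the abstract field -/
  E : Type
  [fieldE : Field E]
  [algE : Algebra E₀ E]
  /-- the forward embedding -/
  fwd : E →ₐ[E₀] Ω
  /-- the reverse embedding -/
  rev : E →ₐ[E₀] Ω
  /-- index type of the basis -/
  ι : Type
  [fintypeι : Fintype ι]
  /-- the basis -/
  basis : Module.Basis ι E₀ E

attribute [instance] TowerState.fieldE TowerState.algE TowerState.fintypeι

variable {E₀ Ω}

/-- the trivial tower state `E = E₀`. -/
abbrev TowerState.base : TowerState E₀ Ω where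
  E := E₀
  fwd := Algebra.ofId E₀ Ω
  rev := Algebra.ofId E₀ Ω
  ι := Unit
  basis := Module.Basis.singleton Unit E₀

instance (st : TowerState E₀ Ω) : Module.Finite E₀ st.E := Module.Finite.of_basis st.basis

variable (st : TowerState E₀ Ω) (g : st.E[X]) (hirr : Irreducible g) (hmonic : g.Monic)
  (x x' : Ω) (hx : g.eval₂ (st.fwd : st.E →+* Ω) x = 0) (hx' : g.eval₂ (st.rev : st.E →+* Ω) x' = 0)

/-- adjoin a root of the irreducible monic polynomial `g`, mapped to `x` by `fwd` and to `x'` by
`rev`. -/
def TowerState.extend : TowerState E₀ Ω :=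
  letI : Fact (Irreducible g) := ⟨hirr⟩
  { E := AdjoinRoot g
    fwd := AdjoinRoot.liftAlgHom g st.fwd x hx
    rev := AdjoinRoot.liftAlgHom g st.rev x' hx'
    ι := st.ι × Fin g.natDegree
    basis := st.basis.smulTower (AdjoinRoot.powerBasis' hmonic).basis }

include hirr hmonic hx hx' in
/-- Everything we need to know about `TowerState.extend`. -/
theorem TowerState.exists_extend :
    ∃ (st' : TowerState E₀ Ω) (incl : st.E →ₐ[E₀] st'.E) (y : st'.E),
      (∀ e, st'.fwd (incl e) = st.fwd e) ∧ (∀ e, st'.rev (incl e) = st.rev e) ∧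
      st'.fwd y = x ∧ st'.rev y = x' ∧ g.eval₂ (incl : st.E →+* st'.E) y = 0 ∧
      (∀ z : st'.E, ∃ f : st.E[X], z = f.eval₂ (incl : st.E →+* st'.E) y) ∧
      ∃ e : st.ι × Fin g.natDegree ≃ st'.ι,
        ∀ i j, st'.basis (e (i, j)) = incl (st.basis i) * y ^ (j : ℕ) := by
  let _ : Fact (Irreducible g) := ⟨hirr⟩
  refine ⟨st.extend g hirr hmonic x x' hx hx', IsScalarTower.toAlgHom E₀ st.E (AdjoinRoot g),
    AdjoinRoot.root g, ?_, ?_, ?_, ?_, ?_, ?_, Equiv.refl _, ?_⟩
  · intro e
    exact AdjoinRoot.liftAlgHom_of g st.fwd x hx e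
  · intro e
    exact AdjoinRoot.liftAlgHom_of g st.rev x' hx' e
  · exact AdjoinRoot.liftAlgHom_root g st.fwd x hx
  · exact AdjoinRoot.liftAlgHom_root g st.rev x' hx'
  · exact AdjoinRoot.eval₂_root g
  · intro z
    obtain ⟨f, rfl⟩ := AdjoinRoot.mk_surjective z
    refine ⟨f, ?_⟩
    rw [← AdjoinRoot.aeval_eq, aeval_def]
    rfl
  · intro i j
    show (st.basis.smulTower (AdjoinRoot.powerBasis' hmonic).basis) (i, j) = _
    rw [Module.Basis.smulTower_apply, PowerBasis.basis_eq_pow, Algebra.smul_def]
    rfl

end State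

end Fermat.Agent.S28.Tower
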