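import Fermat.Agent.S28.Tower.Defs

/-!
# P-S28 WP-C (tower), characteristic zero: relations over `ℚ` and the unique-common-root lemma

(Backup copy in its own namespace `Fermat.Agent.S28.Tower.CommonRoot`; the team uses
`Tower/Composite.lean` for the same statements.)
-/

set_option autoImplicit false
noncomputable section

namespace Fermat.Agent.S28.Tower.CommonRoot

open ModularCurve Polynomial Fermat.Agent.S28.Tower

/-- `Rel` is reflected by injective ring homs. -/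
theorem rel_of_map_injective {A B : Type*} [CommRing A] [CommRing B] {Φ : ℤ[X][X]} {a b : A}
    (f : A →+* B) (hf : Function.Injective f) (h : Rel Φ (f a) (f b)) : Rel Φ a b := by
  unfold Rel at h ⊢
  rw [← polyAt_map Φ f b, IsRoot.def, eval_map_apply] at h
  exact hf (by rw [h, map_zero])

section CharZero

variable {K : Type} [Field K] [CharZero K]

/-- the comparison map `ℚ((q)) → K((u))`, `q = u^c`. -/
def toK (K : Type) [Field K] [CharZero K] (c : ℕ) : LaurentSeries ℚ →+* LaurentSeries K :=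
  (expand K c).comp (coeffMap (algebraMap ℚ K))

theorem toK_injective {c : ℕ} (hc : c ≠ 0) : Function.Injective (toK K c) := by
  intro a b h
  have h1 := expand_injective hc h
  have hinj : Function.Injective (algebraMap ℚ K) := (algebraMap ℚ K).injective
  ext n
  have := congrArg (fun f : LaurentSeries K => f.coeff n) h1
  simp only [coeffMap_coeff] at this
  exact hinj this

theorem toK_jS {c : ℕ} (hc : c ≠ 0) {n : ℕ} (hn : n ≠ 0) :
    toK K c (jS ℚ 1 n) = jS K 1 (c * n) := by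
  rw [toK, RingHom.comp_apply, coeffMap_jS, map_one, expand_jS hc hn]

/-- `Φ_p(j(q^(np)), j(q^n)) = 0` over `ℚ`. -/
theorem rel_jS_rat {Φ : ℤ[X][X]} {p : ℕ} (hp : p ≠ 0) (hA : IsModEq Φ p K) {ζ : Kˣ}
    (hζ : IsPrimitiveRoot ζ p) {n : ℕ} (hn : n ≠ 0) :
    Rel Φ (jS ℚ 1 (n * p)) (jS ℚ 1 n) := by
  refine rel_of_map_injective (toK K p) (toK_injective hp) ?_
  rw [toK_jS hp hn, toK_jS hp (Nat.mul_ne_zero hn hp)]
  unfold Rel
  have h := hA.general hp hζ 1 hn
  simp only [one_pow, mul_one] at h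
  rw [mul_comm p n, h, IsRoot.def, eval_mul]
  have : p * (n * p) = n * p ^ 2 := by ring
  rw [this]
  simp

/-- `Φ_p(j(q^n), j(q^(np))) = 0` over `ℚ` (the other neighbour). -/
theorem rel_jS_rat' {Φ : ℤ[X][X]} {p : ℕ} (hp : p.Prime) (hA : IsModEq Φ p K) {ζ : Kˣ}
    (hζ : IsPrimitiveRoot ζ p) {n : ℕ} (hn : n ≠ 0) :
    Rel Φ (jS ℚ 1 n) (jS ℚ 1 (n * p)) := by
  have hp0 := hp.ne_zero
  refine rel_of_map_injective (toK K p) (toK_injective hp0) ?_
  rw [toK_jS hp0 hn, toK_jS hp0 (Nat.mul_ne_zero hn hp0)]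
  unfold Rel
  have h := hA.general hp0 hζ 1 hn
  simp only [one_pow, mul_one] at h
  have e1 : p * (n * p) = n * p ^ 2 := by ring
  have h2 := hA.general hp0 hζ 1 (Nat.mul_ne_zero hn hp0)
  simp only [one_pow, mul_one] at h2
  rw [mul_comm p (n * p), h2, IsRoot.def, eval_mul, eval_prod,
    Finset.prod_eq_zero (Finset.mem_range.mpr hp.pos), mul_zero]
  rw [pow_zero, mul_comm p n]
  simp

/-- **Unique common root.** If `p ≠ r` are primes dividing `d` and `j(q^(d/p))`, `j(q^(d/r))` lie in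
a subfield `L` of `ℚ((q))`, then so does `j(q^d)`. -/
theorem jS_mem_of_two_primes (L : Subfield (LaurentSeries ℚ)) {p r d : ℕ} (hp : p.Prime)
    (hr : r.Prime) (hpr : p ≠ r) (hpd : p ∣ d) (hrd : r ∣ d) (hd : d ≠ 0) {Φp Φr : ℤ[X][X]}
    (hΦpm : Φp.Monic) (hAp : IsModEq Φp p K) (hAr : IsModEq Φr r K)
    {ζp ζr : Kˣ} (hζp : IsPrimitiveRoot ζp p) (hζr : IsPrimitiveRoot ζr r)
    (h1 : jS ℚ 1 (d / p) ∈ L) (h2 : jS ℚ 1 (d / r) ∈ L) : jS ℚ 1 d ∈ L := by
  classical
  obtain ⟨d₁, rfl⟩ := hpd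
  have hp0 := hp.ne_zero
  have hr0 := hr.ne_zero
  have hd₁ : d₁ ≠ 0 := fun h => hd (by rw [h, mul_zero])
  obtain ⟨d₂, hd₂⟩ := hrd
  have hd₂0 : d₂ ≠ 0 := fun h => hd (by rw [hd₂, h, mul_zero])
  rw [Nat.mul_div_cancel_left d₁ hp.pos] at h1
  rw [hd₂, Nat.mul_div_cancel_left d₂ hr.pos] at h2
  set x : LaurentSeries ℚ := jS ℚ 1 (p * d₁) with hx
  set a₁ : L := ⟨jS ℚ 1 d₁, h1⟩ with ha₁
  set a₂ : L := ⟨jS ℚ 1 d₂, h2⟩ with ha₂
  set f : L[X] := polyAt Φp a₁ with hf
  set g : L[X] := polyAt Φr a₂ with hg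
  have hfmonic : f.Monic := polyAt_monic hΦpm a₁
  have hfx : aeval x f = 0 := by
    have h := rel_jS_rat hp0 hAp hζp hd₁
    unfold Rel at h
    rw [aeval_def, ← eval_map, hf, polyAt_map, hx, mul_comm p d₁]
    exact h
  have hgx : aeval x g = 0 := by
    have h := rel_jS_rat hr0 hAr hζr hd₂0
    unfold Rel at h
    rw [aeval_def, ← eval_map, hg, polyAt_map, hx, hd₂, mul_comm r d₂]
    exact h
  have hint : IsIntegral L x := ⟨f, hfmonic, by rwa [aeval_def] at hfx⟩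
  set m := minpoly L x with hm
  have hmf : m ∣ f := minpoly.dvd L x hfx
  have hmg : m ∣ g := minpoly.dvd L x hgx
  -- pass to `K((u))`, `q = u^(p r)`
  have hpr0 : p * r ≠ 0 := Nat.mul_ne_zero hp0 hr0
  set ι : L →+* LaurentSeries K := (toK K (p * r)).comp L.subtype with hι
  have hιinj : Function.Injective ι :=
    (toK_injective hpr0).comp Subtype.val_injective
  -- factorisations
  have hF : f.map ι = (X - C (jS K 1 (r * d₁ * p ^ 2))) *
      ∏ i ∈ Finset.range p, (X - C (jS K (ζp ^ i) (r * d₁))) := by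
    have h := hAp.general hp0 hζp 1 (Nat.mul_ne_zero hr0 hd₁)
    simp only [one_pow, mul_one] at h
    rw [hf, polyAt_map, hι, RingHom.comp_apply]
    show polyAt Φp (toK K (p * r) (jS ℚ 1 d₁)) = _
    rw [toK_jS hpr0 hd₁, ← h]
    congr 2
    ring
  have hG : g.map ι = (X - C (jS K 1 (p * d₂ * r ^ 2))) *
      ∏ i ∈ Finset.range r, (X - C (jS K (ζr ^ i) (p * d₂))) := by
    have h := hAr.general hr0 hζr 1 (Nat.mul_ne_zero hp0 hd₂0)
    simp only [one_pow, mul_one] at h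
    rw [hg, polyAt_map, hι, RingHom.comp_apply]
    show polyAt Φr (toK K (p * r) (jS ℚ 1 d₂)) = _
    rw [toK_jS hpr0 hd₂0, ← h]
    congr 2
    ring
  have hx₀ : r * d₁ * p ^ 2 = p * d₂ * r ^ 2 := by
    have : p * d₁ = r * d₂ := hd₂
    calc r * d₁ * p ^ 2 = r * p * (p * d₁) := by ring
      _ = r * p * (r * d₂) := by rw [this]
      _ = p * d₂ * r ^ 2 := by ring
  have hne : r * d₁ ≠ p * d₂ := by
    intro h
    have h3 : r ^ 2 * d₂ = p ^ 2 * d₂ := by
      have : p * d₁ = r * d₂ := hd₂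
      calc r ^ 2 * d₂ = r * (r * d₂) := by ring
        _ = r * (p * d₁) := by rw [this]
        _ = p * (r * d₁) := by ring
        _ = p * (p * d₂) := by rw [h]
        _ = p ^ 2 * d₂ := by ring
    have h4 : r ^ 2 = p ^ 2 := Nat.eq_of_mul_eq_mul_right (Nat.pos_of_ne_zero hd₂0) h3
    exact hpr (Nat.pow_left_injective (by norm_num : 2 ≠ 0) h4).symm
  set M : (LaurentSeries K)[X] := m.map ι with hM
  have hMF : M ∣ f.map ι := Polynomial.map_dvd ι hmf
  have hMG : M ∣ g.map ι := Polynomial.map_dvd ι hmg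
  have hrd₁ : r * d₁ ≠ 0 := Nat.mul_ne_zero hr0 hd₁
  have hpd₂ : p * d₂ ≠ 0 := Nat.mul_ne_zero hp0 hd₂0
  -- `M` is coprime to the non-common part of `f`
  have hcop : IsCoprime M (∏ i ∈ Finset.range p, (X - C (jS K (ζp ^ i) (r * d₁)))) := by
    refine IsCoprime.prod_right fun i _ => ?_
    rw [isCoprime_comm, (irreducible_X_sub_C _).coprime_iff_not_dvd, dvd_iff_isRoot]
    intro hroot
    have h3 : (g.map ι).IsRoot (jS K (ζp ^ i) (r * d₁)) := hroot.dvd hMG
    rw [hG, IsRoot.def, eval_mul, eval_prod, mul_eq_zero, Finset.prod_eq_zero_iff] at h3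
    rcases h3 with h3 | ⟨i', _, h3⟩
    · rw [eval_sub, eval_X, eval_C, sub_eq_zero, ← hx₀] at h3
      refine jS_ne_of_ne_exp hrd₁ (Nat.mul_ne_zero hrd₁ (pow_ne_zero 2 hp0)) _ _ ?_ h3
      have : 1 < p ^ 2 := Nat.one_lt_pow (by norm_num) hp.one_lt
      nlinarith [Nat.pos_of_ne_zero hrd₁]
    · rw [eval_sub, eval_X, eval_C, sub_eq_zero] at h3
      exact jS_ne_of_ne_exp hrd₁ hpd₂ _ _ hne h3
  have hMdvd : M ∣ X - C (jS K 1 (r * d₁ * p ^ 2)) := by
    rw [hF] at hMF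
    exact hcop.dvd_of_dvd_mul_right hMF
  have hdeg : m.natDegree ≤ 1 := by
    have h3 := natDegree_le_of_dvd hMdvd (X_sub_C_ne_zero _)
    rwa [natDegree_X_sub_C, hM, natDegree_map_eq_of_injective hιinj] at h3
  have hdeg1 : m.natDegree = 1 := le_antisymm hdeg (minpoly.natDegree_pos hint)
  obtain ⟨y, hy⟩ := minpoly.natDegree_eq_one_iff.mp hdeg1
  rw [← hy]
  exact y.2

end CharZero

end Fermat.Agent.S28.Tower.CommonRoot
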