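import Fermat.Agent.S28.Tower.Defs
import Fermat.Agent.S28.Tower.Abstract
import Fermat.Agent.S28.Orbit

/-!
# P-S28 WP-C (tower): the tower over an algebraically closed field `k`

All series live in `Ω = k((u))`, `q = u^D`.
-/

set_option autoImplicit false
noncomputable section

namespace Fermat.Agent.S28.Tower

open ModularCurve Polynomial

section Roots

variable {k : Type} [Field k]

/-- existence of a primitive root of unity as a unit. -/
theorem exists_primitiveRoot_unit [IsAlgClosed k] (n : ℕ) (hn : (n : k) ≠ 0) :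
    ∃ ζ : kˣ, IsPrimitiveRoot ζ n := by
  have : NeZero (n : k) := ⟨hn⟩
  obtain ⟨ζ, hζ⟩ := HasEnoughRootsOfUnity.exists_primitiveRoot k n
  have hn0 : n ≠ 0 := by rintro rfl; simp at hn
  exact ⟨(hζ.isUnit hn0).unit, hζ.isUnit_unit hn0⟩

/-- existence of `p`-th roots of units. -/
theorem exists_unit_pow_eq [IsAlgClosed k] (η : kˣ) {p : ℕ} (hp : 0 < p) :
    ∃ η₁ : kˣ, η₁ ^ p = η := by
  obtain ⟨z, hz⟩ := IsAlgClosed.exists_pow_nat_eq (η : k) hp
  have hz0 : z ≠ 0 := by
    rintro rfl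
    rw [zero_pow hp.ne'] at hz
    exact η.ne_zero hz.symm
  exact ⟨Units.mk0 z hz0, Units.ext (by simpa using hz)⟩

/-- if `τ` is a primitive `c`-th root of unity, `c ∣ m * p`, `¬ c ∣ m`, `p` prime, then `τ^m` is a
primitive `p`-th root of unity. -/
theorem isPrimitiveRoot_pow_of_dvd_mul {M : Type*} [CommMonoid M] {τ : M} {c m p : ℕ}
    (hτ : IsPrimitiveRoot τ c) (hp : p.Prime) (hm : m ≠ 0) (h1 : c ∣ m * p) (h2 : ¬ c ∣ m) :
    IsPrimitiveRoot (τ ^ m) p := by
  have hc0 : c ≠ 0 := by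
    rintro rfl
    rw [zero_dvd_iff] at h1
    exact (Nat.mul_ne_zero hm hp.ne_zero) h1
  rw [IsPrimitiveRoot.iff_orderOf, orderOf_pow' τ hm, ← hτ.eq_orderOf]
  set g := Nat.gcd c m with hg
  have hgpos : 0 < g := Nat.gcd_pos_of_pos_left m (Nat.pos_of_ne_zero hc0)
  obtain ⟨c₁, hc₁⟩ : g ∣ c := Nat.gcd_dvd_left c m
  obtain ⟨m₁, hm₁⟩ : g ∣ m := Nat.gcd_dvd_right c m
  have hcop : Nat.Coprime c₁ m₁ := by
    have := Nat.coprime_div_gcd_div_gcd (m := c) (n := m) hgpos
    rwa [← hg, Nat.div_eq_of_eq_mul_right hgpos hc₁, Nat.div_eq_of_eq_mul_right hgpos hm₁] at this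
  have hdiv : c / g = c₁ := Nat.div_eq_of_eq_mul_right hgpos hc₁
  rw [hdiv]
  have h3 : c₁ ∣ m₁ * p := by
    have : g * c₁ ∣ g * (m₁ * p) := by
      rw [← hc₁, ← mul_assoc, ← hm₁]; exact h1
    exact (Nat.mul_dvd_mul_iff_left hgpos).mp this
  have h4 : c₁ ∣ p := hcop.dvd_of_dvd_mul_left h3
  rcases (Nat.dvd_prime hp).mp h4 with h5 | h5
  · exfalso
    apply h2
    rw [hc₁, h5, mul_one]
    exact Nat.gcd_dvd_right c m
  · exact h5

end Roots

section RootsOfPolyAt

variable {k : Type} [Field k]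

/-- the roots of `Φ(X, j(η^p u^(mp)))` in any domain receiving `k((u))`. -/
theorem eq_of_isRoot_polyAt {Φ : ℤ[X][X]} {p : ℕ} (hA : IsModEq Φ p k) (hp : p ≠ 0) {ζ : kˣ}
    (hζ : IsPrimitiveRoot ζ p) (η : kˣ) {m : ℕ} (hm : m ≠ 0) {A : Type*} [CommRing A] [IsDomain A]
    (φ : LaurentSeries k →+* A) (z : A)
    (hz : (polyAt Φ (φ (jS k (η ^ p) (m * p)))).IsRoot z) :
    z = φ (jS k (η ^ (p ^ 2)) (m * p ^ 2)) ∨
      ∃ i ∈ Finset.range p, z = φ (jS k (ζ ^ i * η) m) := by
  rw [← polyAt_map, hA.general hp hζ η hm, Polynomial.map_mul, Polynomial.map_sub,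
    Polynomial.map_X, Polynomial.map_C, Polynomial.map_prod, IsRoot.def, eval_mul, eval_prod,
    mul_eq_zero, Finset.prod_eq_zero_iff] at hz
  rcases hz with hz | ⟨i, hi, hz⟩
  · left
    simpa [sub_eq_zero] using hz
  · right
    refine ⟨i, hi, ?_⟩
    simpa [sub_eq_zero] using hz

end RootsOfPolyAt

section Setup

variable (k : Type) [Field k] (D : ℕ)

/-- the base field `k(j̄(q))`, `q = u^D`. -/
abbrev E₀ : IntermediateField k (LaurentSeries k) := IntermediateField.adjoin k {jS k 1 D}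

/-- the generator `j̄(q)` of the base field. -/
def gen₀ : E₀ k D := ⟨jS k 1 D, IntermediateField.subset_adjoin k _ (Set.mem_singleton _)⟩

@[simp] theorem coe_gen₀ : (gen₀ k D : LaurentSeries k) = jS k 1 D := rfl

theorem algebraMap_gen₀ : algebraMap (E₀ k D) (LaurentSeries k) (gen₀ k D) = jS k 1 D := rfl

variable {k D}

/-- every `E₀`-embedding of `st.E` into the algebraic closure of `k((u))` lands in `k((u^c))`. -/
def LandsIn (st : TowerState (E₀ k D) (LaurentSeries k)) (c : ℕ) : Prop :=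
  ∀ ψ : st.E →ₐ[E₀ k D] AlgebraicClosure (LaurentSeries k), ∀ e : st.E,
    ∃ f : LaurentSeries k, ψ e = algebraMap _ _ (expand k c f)

/-- every `E₀`-embedding of `st.E` into the algebraic closure of `k((u))` maps `y` to some
`j(η u^n)` with `c ∣ n`. -/
def ChainProp (st : TowerState (E₀ k D) (LaurentSeries k)) (y : st.E) (c : ℕ) : Prop :=
  ∀ ψ : st.E →ₐ[E₀ k D] AlgebraicClosure (LaurentSeries k),
    ∃ (η : kˣ) (n : ℕ), n ≠ 0 ∧ c ∣ n ∧ ψ y = algebraMap _ _ (jS k η n)

theorem LandsIn.rev_mem {st : TowerState (E₀ k D) (LaurentSeries k)} {c : ℕ}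
    (h : LandsIn st c) (e : st.E) : ∃ f : LaurentSeries k, st.rev e = expand k c f := by
  obtain ⟨f, hf⟩ := h ((IsScalarTower.toAlgHom (E₀ k D) (LaurentSeries k)
    (AlgebraicClosure (LaurentSeries k))).comp st.rev) e
  exact ⟨f, (algebraMap (LaurentSeries k) (AlgebraicClosure (LaurentSeries k))).injective hf⟩

theorem LandsIn.mono {st : TowerState (E₀ k D) (LaurentSeries k)} {c c' : ℕ}
    (h : LandsIn st c) (hc : c ≠ 0) (hc' : c' ≠ 0) (hdvd : c' ∣ c) : LandsIn st c' := by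
  intro ψ e
  obtain ⟨f, hf⟩ := h ψ e
  obtain ⟨f', hf'⟩ := range_expand_le_of_dvd hc' hc hdvd ⟨f, rfl⟩
  exact ⟨f', by rw [hf, ← hf']⟩

end Setup

section Steps

variable {k : Type} [Field k]

theorem iterate_twist_jS (τ η : kˣ) {m : ℕ} (hm : m ≠ 0) (i : ℕ) :
    (⇑(twist τ))^[i] (jS k η m) = jS k ((τ ^ m) ^ i * η) m := by
  induction i with
  | zero => simp
  | succ i ih =>
    rw [Function.iterate_succ_apply', ih, twist_jS hm, pow_succ, mul_left_comm, mul_assoc]

/-- polynomial expressions with coefficients and argument in `k((u^c))` stay there. -/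
theorem eval₂_mem_range_expand {A B : Type*} [CommRing A] [CommRing B] (φ : A →+* B)
    (S : Subring B) (hφ : ∀ a, φ a ∈ S) {b : B} (hb : b ∈ S) (f : A[X]) : f.eval₂ φ b ∈ S := by
  rw [eval₂_eq_sum_range]
  exact Subring.sum_mem _ fun i _ => Subring.mul_mem _ (hφ _) (Subring.pow_mem _ hb _)

variable [IsAlgClosed k] {D : ℕ}

set_option maxHeartbeats 1000000 in
/-- **Repeated-prime step.** -/
theorem step_rep {Φ : ℤ[X][X]} {p : ℕ} (hp : p.Prime) (hΦm : Φ.Monic)
    (hΦd : Φ.natDegree = p + 1) (hA : IsModEq Φ p k)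
    (st : TowerState (E₀ k D) (LaurentSeries k)) (y yp : st.E) {m F c c' : ℕ} (hm : m ≠ 0)
    (hF : F ≠ 0) (hck : (c : k) ≠ 0) (hc' : c' ≠ 0)
    (hry : st.rev y = jS k 1 (m * p)) (hryp : st.rev yp = jS k 1 (m * p ^ 2))
    (hfy : st.fwd y = jS k 1 (F * p)) (hfyp : st.fwd yp = jS k 1 F)
    (hL : LandsIn st c) (hc1 : c ∣ m * p) (hc2 : ¬ c ∣ m) (hc'c : c' ∣ c) (hc'm : c' ∣ m)
    (hch : ChainProp st y (m * p)) :
    ∃ (st' : TowerState (E₀ k D) (LaurentSeries k)) (incl : st.E →ₐ[E₀ k D] st'.E) (y' : st'.E),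
      (∀ e, st'.fwd (incl e) = st.fwd e) ∧ (∀ e, st'.rev (incl e) = st.rev e) ∧
      st'.fwd y' = jS k 1 (F * p ^ 2) ∧ st'.rev y' = jS k 1 m ∧
      LandsIn st' c' ∧ ChainProp st' y' m ∧
      ∃ e : st.ι × Fin p ≃ st'.ι, ∀ i j, st'.basis (e (i, j)) = incl (st.basis i) * y' ^ (j : ℕ) := by
  classical
  have hp0 : p ≠ 0 := hp.ne_zero
  have hc0 : c ≠ 0 := by rintro rfl; simp at hck
  obtain ⟨τ, hτ⟩ := exists_primitiveRoot_unit (k := k) c hck
  have hζ : IsPrimitiveRoot (τ ^ m) p := isPrimitiveRoot_pow_of_dvd_mul hτ hp hm hc1 hc2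
  set ζ : kˣ := τ ^ m with hζdef
  -- the big polynomial
  set G : st.E[X] := polyAt Φ y with hG
  have hGmonic : G.Monic := polyAt_monic hΦm y
  have hGdeg : G.natDegree = p + 1 := by rw [hG, polyAt_natDegree hΦm, hΦd]
  have hGrev : G.map (st.rev : st.E →+* LaurentSeries k) =
      (X - C (jS k 1 (m * p ^ 2))) * ∏ i ∈ Finset.range p, (X - C (jS k (ζ ^ i) m)) := by
    have h := hA.general hp0 hζ 1 hm
    simp only [one_pow, mul_one] at h
    rw [hG, polyAt_map, RingHom.coe_coe, hry, h]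
  have hGfwd : G.map (st.fwd : st.E →+* LaurentSeries k) =
      (X - C (jS k 1 (F * p ^ 2))) * ∏ i ∈ Finset.range p, (X - C (jS k (ζ ^ i) F)) := by
    have h := hA.general hp0 hζ 1 hF
    simp only [one_pow, mul_one] at h
    rw [hG, polyAt_map, RingHom.coe_coe, hfy, h]
  -- `yp` is a root
  have hroot : G.IsRoot yp := by
    have hinj : Function.Injective (st.rev : st.E →+* LaurentSeries k) := st.rev.toRingHom.injective
    apply hinj
    rw [map_zero, ← Polynomial.eval_map_apply, hGrev, RingHom.coe_coe, hryp]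
    simp
  set g : st.E[X] := G /ₘ (X - C yp) with hg
  have hmul : (X - C yp) * g = G := mul_divByMonic_eq_iff_isRoot.mpr hroot
  have hgmonic : g.Monic := (monic_X_sub_C yp).of_mul_monic_left (hmul ▸ hGmonic)
  have hgdeg : g.natDegree = p := by
    have h := congrArg natDegree hmul
    rw [(monic_X_sub_C yp).natDegree_mul hgmonic, natDegree_X_sub_C, hGdeg] at h
    omega
  have hgrev : g.map (st.rev : st.E →+* LaurentSeries k) =
      ∏ i ∈ Finset.range p, (X - C (jS k (ζ ^ i) m)) := by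
    have h := congrArg (Polynomial.map (st.rev : st.E →+* LaurentSeries k)) hmul
    rw [Polynomial.map_mul, Polynomial.map_sub, Polynomial.map_X, Polynomial.map_C, hGrev,
      RingHom.coe_coe, hryp] at h
    exact mul_left_cancel₀ (monic_X_sub_C _).ne_zero h
  -- irreducibility by the orbit criterion on the reverse side
  have hirr : Irreducible g := by
    let _ : Algebra st.E (LaurentSeries k) := (st.rev : st.E →+* LaurentSeries k).toAlgebra
    refine irreducible_of_orbit (L := st.E) (E := LaurentSeries k) (twist τ) ?_ hp.pos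
      (jS k 1 m) ?_ g ?_
    · intro e
      obtain ⟨f, hf⟩ := hL.rev_mem e
      show twist τ (st.rev e) = st.rev e
      rw [hf, twist_expand_of_pow_eq_one hc0 τ hτ.pow_eq_one]
    · intro i hi j hj hij
      rw [iterate_twist_jS τ 1 hm, iterate_twist_jS τ 1 hm, mul_one, mul_one] at hij
      exact hζ.pow_inj hi hj (jS_injective_unit hm hij)
    · show g.map (st.rev : st.E →+* LaurentSeries k) = _
      rw [hgrev]
      refine Finset.prod_congr rfl fun i _ => ?_
      rw [iterate_twist_jS τ 1 hm, mul_one]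
  -- the new roots
  have hx : g.eval₂ (st.fwd : st.E →+* LaurentSeries k) (jS k 1 (F * p ^ 2)) = 0 := by
    have h := congrArg (Polynomial.map (st.fwd : st.E →+* LaurentSeries k)) hmul
    rw [Polynomial.map_mul, Polynomial.map_sub, Polynomial.map_X, Polynomial.map_C, hGfwd,
      RingHom.coe_coe, hfyp] at h
    have h2 := congrArg (Polynomial.eval (jS k 1 (F * p ^ 2))) h
    rw [eval_mul, eval_mul, eval_sub, eval_sub, eval_X, eval_C, eval_C, sub_self, zero_mul,
      mul_eq_zero] at h2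
    rcases h2 with h2 | h2
    · exfalso
      have hne : F * p ^ 2 ≠ F := by
        have : 1 < p ^ 2 := Nat.one_lt_pow (by norm_num) hp.one_lt
        nlinarith [Nat.pos_of_ne_zero hF]
      exact jS_ne_of_ne_exp (Nat.mul_ne_zero hF (pow_ne_zero 2 hp0)) hF 1 1 hne (sub_eq_zero.mp h2)
    · rwa [eval_map] at h2
  have hx' : g.eval₂ (st.rev : st.E →+* LaurentSeries k) (jS k 1 m) = 0 := by
    rw [← eval_map, hgrev, eval_prod, Finset.prod_eq_zero (Finset.mem_range.mpr hp.pos)]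
    simp
  obtain ⟨st', incl, y', h1, h2, h3, h4, h5, h6, e, he⟩ :=
    st.exists_extend g hirr hgmonic _ _ hx hx'
  have hRel : (polyAt Φ (incl y)).IsRoot y' := by
    have hmap : polyAt Φ (incl y) = G.map (incl : st.E →+* st'.E) :=
      (polyAt_map Φ (incl : st.E →+* st'.E) y).symm
    rw [hmap, ← hmul, Polynomial.map_mul, IsRoot.def, eval_mul, eval_map (p := g), h5, mul_zero]
  have hchain : ChainProp st' y' m := by
    intro ψ
    obtain ⟨η, n, hn0, hn, hψ⟩ := hch (ψ.comp incl)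
    obtain ⟨n₁, rfl⟩ : p ∣ n := (Dvd.intro_left m rfl).trans hn
    have hn₁ : n₁ ≠ 0 := fun h => hn0 (by rw [h, mul_zero])
    have hmn₁ : m ∣ n₁ := by
      rw [mul_comm p n₁] at hn
      exact (Nat.mul_dvd_mul_iff_right hp.pos).mp hn
    obtain ⟨η₁, rfl⟩ := exists_unit_pow_eq η hp.pos
    have hRel' := hRel.map (f := (ψ : st'.E →+* AlgebraicClosure (LaurentSeries k)))
    rw [polyAt_map] at hRel'
    have hψ' : (ψ : st'.E →+* _) (incl y) = algebraMap (LaurentSeries k)
        (AlgebraicClosure (LaurentSeries k)) (jS k (η₁ ^ p) (n₁ * p)) := by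
      rw [mul_comm n₁ p]; exact hψ
    rw [hψ'] at hRel'
    rcases eq_of_isRoot_polyAt hA hp0 hζ η₁ hn₁ _ _ hRel' with h | ⟨i, _, h⟩
    · exact ⟨_, _, Nat.mul_ne_zero hn₁ (pow_ne_zero 2 hp0), hmn₁.mul_right _, h⟩
    · exact ⟨_, _, hn₁, hmn₁, h⟩
  refine ⟨st', incl, y', h1, h2, h3, h4, ?_, hchain, ?_⟩
  · intro ψ z
    obtain ⟨f, rfl⟩ := h6 z
    have hmem : f.eval₂ ((ψ : st'.E →+* AlgebraicClosure (LaurentSeries k)).comp
        (incl : st.E →+* st'.E)) (ψ y') ∈ ((expand k c').range.map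
          (algebraMap (LaurentSeries k) (AlgebraicClosure (LaurentSeries k)))) := by
      refine eval₂_mem_range_expand _ _ ?_ ?_ f
      · intro a
        obtain ⟨f', hf'⟩ := (hL.mono hc0 hc' hc'c) (ψ.comp incl) a
        exact ⟨_, ⟨f', rfl⟩, hf'.symm⟩
      · obtain ⟨η, n, hn0, hn, hψ⟩ := hchain ψ
        rw [hψ]
        exact ⟨_, jS_mem_range_expand hc' hn0 (hc'm.trans hn) η, rfl⟩
    obtain ⟨_, ⟨f', rfl⟩, hf'⟩ := hmem
    refine ⟨f', ?_⟩
    rw [hf']
    exact Polynomial.hom_eval₂ f _ (ψ : st'.E →+* AlgebraicClosure (LaurentSeries k)) y'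
  · refine ⟨(Equiv.prodCongr (Equiv.refl _) (finCongr hgdeg.symm)).trans e, fun i j => ?_⟩
    simp only [Equiv.trans_apply, Equiv.prodCongr_apply, Equiv.coe_refl, Prod.map_apply, id_eq]
    rw [he]
    rfl

set_option maxHeartbeats 1000000 in
/-- **New-prime step.** -/
theorem step_new {Φ : ℤ[X][X]} {p : ℕ} (hp : p.Prime) (hΦm : Φ.Monic)
    (hΦd : Φ.natDegree = p + 1) (hA : IsModEq Φ p k)
    (hB : Irreducible (polyAt Φ (gen₀ k D)))
    (st : TowerState (E₀ k D) (LaurentSeries k)) {m c c' : ℕ} (hD : D = m * p) (hm : m ≠ 0)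
    (hck : (c : k) ≠ 0) (hc' : c' ≠ 0)
    (hL : LandsIn st c) (hc1 : c ∣ m * p) (hc2 : ¬ c ∣ m) (hc'c : c' ∣ c) (hc'm : c' ∣ m) :
    ∃ (st' : TowerState (E₀ k D) (LaurentSeries k)) (incl : st.E →ₐ[E₀ k D] st'.E) (y' : st'.E),
      (∀ e, st'.fwd (incl e) = st.fwd e) ∧ (∀ e, st'.rev (incl e) = st.rev e) ∧
      st'.fwd y' = jS k 1 (D * p) ∧ st'.rev y' = jS k 1 m ∧
      LandsIn st' c' ∧ ChainProp st' y' m ∧
      ∃ e : st.ι × Fin (p + 1) ≃ st'.ι,
        ∀ i j, st'.basis (e (i, j)) = incl (st.basis i) * y' ^ (j : ℕ) := by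
  classical
  have hp0 : p ≠ 0 := hp.ne_zero
  have hD0 : D ≠ 0 := by rw [hD]; exact Nat.mul_ne_zero hm hp0
  have hc0 : c ≠ 0 := by rintro rfl; simp at hck
  obtain ⟨τ, hτ⟩ := exists_primitiveRoot_unit (k := k) c hck
  have hζ : IsPrimitiveRoot (τ ^ m) p := isPrimitiveRoot_pow_of_dvd_mul hτ hp hm hc1 hc2
  set ζ : kˣ := τ ^ m with hζdef
  set g₀ : (E₀ k D)[X] := polyAt Φ (gen₀ k D) with hg₀
  set y : st.E := algebraMap (E₀ k D) st.E (gen₀ k D) with hy
  have hry : st.rev y = jS k 1 (m * p) := by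
    rw [hy, AlgHom.commutes, algebraMap_gen₀, hD]
  have hfy : st.fwd y = jS k 1 (m * p) := by
    rw [hy, AlgHom.commutes, algebraMap_gen₀, hD]
  set g : st.E[X] := polyAt Φ y with hg
  have hgmap : g = g₀.map (algebraMap (E₀ k D) st.E) := by rw [hg, hg₀, polyAt_map]
  have hgmonic : g.Monic := polyAt_monic hΦm y
  have hgdeg : g.natDegree = p + 1 := by rw [hg, polyAt_natDegree hΦm, hΦd]
  have hfactor : polyAt Φ (jS k 1 (m * p)) =
      (X - C (jS k 1 (m * p ^ 2))) * ∏ i ∈ Finset.range p, (X - C (jS k (ζ ^ i) m)) := by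
    have h := hA.general hp0 hζ 1 hm
    simpa only [one_pow, mul_one] using h
  have hgrev : g.map (st.rev : st.E →+* LaurentSeries k) =
      (X - C (jS k 1 (m * p ^ 2))) * ∏ i ∈ Finset.range p, (X - C (jS k (ζ ^ i) m)) := by
    rw [hg, polyAt_map, RingHom.coe_coe, hry, hfactor]
  have hgfwd : g.map (st.fwd : st.E →+* LaurentSeries k) =
      (X - C (jS k 1 (m * p ^ 2))) * ∏ i ∈ Finset.range p, (X - C (jS k (ζ ^ i) m)) := by
    rw [hg, polyAt_map, RingHom.coe_coe, hfy, hfactor]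
  -- no root in `st.E`
  have hnoroot : ∀ y₀ : st.E, ¬ g.IsRoot y₀ := by
    intro y₀ hy₀
    have hg₀monic : g₀.Monic := polyAt_monic hΦm _
    refine not_isRoot_of_forall_algHom (F := E₀ k D) (E := st.E)
      (K := AlgebraicClosure (LaurentSeries k)) g₀ hB hg₀monic
      (algebraMap (LaurentSeries k) (AlgebraicClosure (LaurentSeries k)) (jS k 1 m)) ?_ ?_ y₀
      (by rw [← hgmap]; exact hy₀)
    · have h1 : g₀.map (algebraMap (E₀ k D) (LaurentSeries k)) = polyAt Φ (jS k 1 (m * p)) := by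
        rw [hg₀, polyAt_map, algebraMap_gen₀, hD]
      rw [aeval_def, IsScalarTower.algebraMap_eq (E₀ k D) (LaurentSeries k)
        (AlgebraicClosure (LaurentSeries k)), ← eval₂_map, eval₂_hom, h1, hfactor, eval_mul,
        eval_prod, Finset.prod_eq_zero (Finset.mem_range.mpr hp.pos), mul_zero, map_zero]
      simp
    · intro ψ e he
      obtain ⟨f, hf⟩ := hL ψ e
      rw [hf] at he
      have h2 := (algebraMap (LaurentSeries k) (AlgebraicClosure (LaurentSeries k))).injective he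
      have h3 := coeff_jS_neg hm (1 : kˣ)
      rw [← h2, expand_coeff_of_not_dvd hc0] at h3
      · simp at h3
      · rw [Int.dvd_neg, Int.natCast_dvd_natCast]; exact hc2
  -- irreducibility
  have hirr : Irreducible g := by
    let _ : Algebra st.E (LaurentSeries k) := (st.rev : st.E →+* LaurentSeries k).toAlgebra
    have hdich := Fermat.Agent.S28.irreducible_or_mem_range_of_orbit (L := st.E)
      (E := LaurentSeries k) (twist τ) ?_ hp.pos (jS k 1 (m * p ^ 2)) (jS k 1 m) ?_ g ?_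
    · rcases hdich with h | ⟨y₀, hy₀⟩
      · exact h
      · exfalso
        apply hnoroot y₀
        have hinj : Function.Injective (st.rev : st.E →+* LaurentSeries k) :=
          st.rev.toRingHom.injective
        apply hinj
        rw [map_zero, ← Polynomial.eval_map_apply, hgrev]
        have : (st.rev : st.E →+* LaurentSeries k) y₀ = jS k 1 (m * p ^ 2) := hy₀
        rw [this]
        simp
    · intro e
      obtain ⟨f, hf⟩ := hL.rev_mem e
      show twist τ (st.rev e) = st.rev e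
      rw [hf, twist_expand_of_pow_eq_one hc0 τ hτ.pow_eq_one]
    · intro i hi j hj hij
      rw [iterate_twist_jS τ 1 hm, iterate_twist_jS τ 1 hm, mul_one, mul_one] at hij
      exact hζ.pow_inj hi hj (jS_injective_unit hm hij)
    · show g.map (st.rev : st.E →+* LaurentSeries k) = _
      rw [hgrev]
      congr 1
      refine Finset.prod_congr rfl fun i _ => ?_
      rw [iterate_twist_jS τ 1 hm, mul_one]
  have hx : g.eval₂ (st.fwd : st.E →+* LaurentSeries k) (jS k 1 (D * p)) = 0 := by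
    rw [← eval_map, hgfwd, hD, mul_assoc, ← pow_two]
    simp
  have hx' : g.eval₂ (st.rev : st.E →+* LaurentSeries k) (jS k 1 m) = 0 := by
    rw [← eval_map, hgrev, eval_mul, eval_prod,
      Finset.prod_eq_zero (Finset.mem_range.mpr hp.pos), mul_zero]
    simp
  obtain ⟨st', incl, y', h1, h2, h3, h4, h5, h6, e, he⟩ :=
    st.exists_extend g hirr hgmonic _ _ hx hx'
  have hRel : (polyAt Φ (incl y)).IsRoot y' := by
    have hmap : polyAt Φ (incl y) = g.map (incl : st.E →+* st'.E) :=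
      (polyAt_map Φ (incl : st.E →+* st'.E) y).symm
    rw [hmap, IsRoot.def, eval_map, h5]
  have hchain : ChainProp st' y' m := by
    intro ψ
    have hψy : (ψ : st'.E →+* _) (incl y) = algebraMap (LaurentSeries k)
        (AlgebraicClosure (LaurentSeries k)) (jS k ((1 : kˣ) ^ p) (m * p)) := by
      have : incl y = algebraMap (E₀ k D) st'.E (gen₀ k D) := by rw [hy, AlgHom.commutes]
      rw [this, one_pow]
      show ψ (algebraMap (E₀ k D) st'.E (gen₀ k D)) = _
      rw [AlgHom.commutes, IsScalarTower.algebraMap_apply (E₀ k D) (LaurentSeries k)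
        (AlgebraicClosure (LaurentSeries k)), algebraMap_gen₀, hD]
    have hRel' := hRel.map (f := (ψ : st'.E →+* AlgebraicClosure (LaurentSeries k)))
    rw [polyAt_map, hψy] at hRel'
    rcases eq_of_isRoot_polyAt hA hp0 hζ 1 hm _ _ hRel' with h | ⟨i, _, h⟩
    · exact ⟨_, _, Nat.mul_ne_zero hm (pow_ne_zero 2 hp0), Dvd.intro _ rfl, h⟩
    · exact ⟨_, _, hm, dvd_rfl, h⟩
  refine ⟨st', incl, y', h1, h2, h3, h4, ?_, hchain, ?_⟩
  · intro ψ z
    obtain ⟨f, rfl⟩ := h6 z
    have hmem : f.eval₂ ((ψ : st'.E →+* AlgebraicClosure (LaurentSeries k)).comp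
        (incl : st.E →+* st'.E)) (ψ y') ∈ ((expand k c').range.map
          (algebraMap (LaurentSeries k) (AlgebraicClosure (LaurentSeries k)))) := by
      refine eval₂_mem_range_expand _ _ ?_ ?_ f
      · intro a
        obtain ⟨f', hf'⟩ := (hL.mono hc0 hc' hc'c) (ψ.comp incl) a
        exact ⟨_, ⟨f', rfl⟩, hf'.symm⟩
      · obtain ⟨η, n, hn0, hn, hψ⟩ := hchain ψ
        rw [hψ]
        exact ⟨_, jS_mem_range_expand hc' hn0 (hc'm.trans hn) η, rfl⟩
    obtain ⟨_, ⟨f', rfl⟩, hf'⟩ := hmem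
    refine ⟨f', ?_⟩
    rw [hf']
    exact Polynomial.hom_eval₂ f _ (ψ : st'.E →+* AlgebraicClosure (LaurentSeries k)) y'
  · refine ⟨(Equiv.prodCongr (Equiv.refl _) (finCongr hgdeg.symm)).trans e, fun i j => ?_⟩
    simp only [Equiv.trans_apply, Equiv.prodCongr_apply, Equiv.coe_refl, Prod.map_apply, id_eq]
    rw [he]
    rfl

end Steps

end Fermat.Agent.S28.Tower
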